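import Fermat.Agent.PadicForms.Operators
import Fermat.Agent.Root.SummaryPadicZeta
import Fermat.Agent.Tau.Differential
import Mathlib.FieldTheory.Finite.Basic

/-!
# `p`-adic Eisenstein series, and the operator `θ`

The Eisenstein series of large even weights tending to `κ ≠ 0` converge to a `p`-adic form `G*_κ`;
at an even integer `k ≥ 2` it has the constant `(1 - p^(k-1)) (-B_k / 2k)` and coefficients
`σ*_(k-1)`. Hence `E₂` is a `p`-adic form of weight `2`, and `θ = q d/dq` raises weights by `2`.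
-/

set_option autoImplicit false
set_option linter.unusedSectionVars false

noncomputable section

open UpperHalfPlane hiding I
open PowerSeries Filter Topology
open scoped ArithmeticFunction.sigma MatrixGroups ModularForm

namespace FA.PadicForms

open FA.Tau FA.Eis Derivative

/-- `-B_k / 2k + ∑ σ_(k-1)(n) qⁿ`. -/
def eisSer (k : ℕ) : PowerSeries ℚ :=
  PowerSeries.mk fun n => if n = 0 then -(bernoulli k / (2 * k)) else ((σ (k - 1) n : ℕ) : ℚ)

/-- `∑ d ^ (k - 1)` over the divisors prime to `p`. -/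
def starSum (p k n : ℕ) : ℕ := ∑ d ∈ n.divisors with ¬p ∣ d, d ^ (k - 1)

/-- Serre's `G*_k` at an integer. -/
def eisStar (p k : ℕ) : PowerSeries ℚ :=
  PowerSeries.mk fun n => if n = 0 then (1 - (p : ℚ) ^ (k - 1)) * -(bernoulli k / (2 * k))
    else (starSum p k n : ℚ)

theorem isRatForm_eisSer {k : ℕ} (hev : Even k) (hk : 4 ≤ k) : IsRatForm k (eisSer k) := by
  have hk3 : 3 ≤ k := by omega
  have hB : bernoulli k ≠ 0 := fun h => by
    have := FA.SerreDenominators.pow_succ_dvd_den hev Nat.prime_two (one_dvd _) (e := 0) (one_dvd _)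
      (by omega)
    rw [h, zero_div, Rat.den_zero] at this
    exact absurd (Nat.le_of_dvd one_pos this) (by norm_num)
  refine ⟨((-(bernoulli k / (2 * k)) : ℚ) : ℂ) • ModularForm.E hk3, ?_⟩
  rw [FunLike.coe_smul, ((hasQ_form _).smul _).qExpansion_eq one_pos]
  refine PowerSeries.ext fun n => ?_
  rw [PowerSeries.coeff_smul, EisensteinSeries.E_qExpansion_coeff hk3 hev, coeff_map, eisSer,
    coeff_mk, smul_eq_mul, eq_ratCast]
  split_ifs
  · rw [mul_one]
  · have h1 : (bernoulli k : ℂ) ≠ 0 := Rat.cast_ne_zero.2 hB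
    have h2 : (k : ℂ) ≠ 0 := Nat.cast_ne_zero.2 (by omega)
    push_cast
    field_simp

variable {p : ℕ} [Fact p.Prime]

/-- The divisor sums of `p n`. -/
theorem sigma_split (k : ℕ) {n : ℕ} (hn : n ≠ 0) :
    σ (k - 1) (p * n) = p ^ (k - 1) * σ (k - 1) n + starSum p k n := by
  classical
  have hp : p.Prime := Fact.out
  rw [ArithmeticFunction.sigma_apply, ArithmeticFunction.sigma_apply, starSum,
    ← Finset.sum_filter_add_sum_filter_not (p * n).divisors (fun d => p ∣ d), Finset.mul_sum]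
  congr 1
  · refine (Finset.sum_bij (fun d _ => p * d) (fun d hd => ?_) (fun a _ b _ e => ?_)
      (fun d hd => ?_) fun d _ => ?_).symm
    · rw [Finset.mem_filter, Nat.mem_divisors]
      exact ⟨⟨mul_dvd_mul_left p (Nat.mem_divisors.1 hd).1, mul_ne_zero hp.ne_zero hn⟩,
        dvd_mul_right _ _⟩
    · exact Nat.eq_of_mul_eq_mul_left hp.pos e
    · obtain ⟨h1, c, rfl⟩ := Finset.mem_filter.1 hd
      exact ⟨c, Nat.mem_divisors.2
        ⟨(Nat.mul_dvd_mul_iff_left hp.pos).1 (Nat.mem_divisors.1 h1).1, hn⟩, rfl⟩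
    · rw [mul_pow]
  · refine Finset.sum_congr (Finset.ext fun d => ?_) fun _ _ => rfl
    simp only [Finset.mem_filter, Nat.mem_divisors]
    constructor
    · rintro ⟨⟨h1, -⟩, h2⟩
      exact ⟨⟨((hp.coprime_iff_not_dvd.2 h2).symm).dvd_of_dvd_mul_left h1, hn⟩, h2⟩
    · rintro ⟨⟨h1, -⟩, h2⟩
      exact ⟨⟨h1.mul_left p, mul_ne_zero hp.ne_zero hn⟩, h2⟩

/-- The divisor sum without the multiples of `p`. -/
theorem sigma_star (k : ℕ) {n : ℕ} (hn : n ≠ 0) :
    σ (k - 1) n = starSum p k n + if p ∣ n then p ^ (k - 1) * σ (k - 1) (n / p) else 0 := by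
  classical
  split_ifs with h
  · obtain ⟨m, rfl⟩ := h
    have hm : m ≠ 0 := fun e => hn (by rw [e, mul_zero])
    rw [Nat.mul_div_cancel_left _ (Fact.out : p.Prime).pos, sigma_split k hm, add_comm]
    congr 1
    refine Finset.sum_congr (Finset.ext fun d => ?_) fun _ _ => rfl
    simp only [Finset.mem_filter, Nat.mem_divisors]
    constructor
    · rintro ⟨⟨h1, -⟩, h2⟩
      exact ⟨⟨h1.mul_left p, hn⟩, h2⟩
    · rintro ⟨⟨h1, -⟩, h2⟩
      exact ⟨⟨(((Fact.out : p.Prime).coprime_iff_not_dvd.2 h2).symm).dvd_of_dvd_mul_left h1, hm⟩,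
        h2⟩
  · rw [add_zero, ArithmeticFunction.sigma_apply, starSum, Finset.filter_true_of_mem]
    exact fun d hd hpd => h (hpd.trans (Nat.mem_divisors.1 hd).1)

/-- Congruent exponents give congruent powers. -/
theorem norm_pow_sub {d k k' a : ℕ} (hd : ¬p ∣ d) (hk : 1 ≤ k) (hk' : 1 ≤ k')
    (h : (((p - 1) * p ^ a : ℕ) : ℤ) ∣ (k' : ℤ) - (k : ℤ)) :
    ‖((d : ℚ_[p])) ^ (k' - 1) - (d : ℚ_[p]) ^ (k - 1)‖ ≤ (p : ℝ) ^ (-((a + 1 : ℕ) : ℤ)) := by
  have hp : p.Prime := Fact.out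
  wlog hle : k ≤ k' generalizing k k'
  · rw [norm_sub_rev]
    exact this hk' hk (by rw [← neg_sub, dvd_neg]; exact h) (le_of_not_ge hle)
  rw [← Nat.cast_sub hle] at h
  obtain ⟨t, ht⟩ := Int.natCast_dvd_natCast.1 h
  have hcop : Nat.Coprime d (p ^ (a + 1)) :=
    Nat.Coprime.pow_right _ (hp.coprime_iff_not_dvd.2 hd).symm
  have hone : d ^ ((p - 1) * p ^ a * t) ≡ 1 [MOD p ^ (a + 1)] := by
    have h1 := (Nat.ModEq.pow_totient hcop).pow t
    rw [Nat.totient_prime_pow hp (Nat.succ_pos a), one_pow, ← pow_mul] at h1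
    rwa [show a + 1 - 1 = a by omega, mul_comm (p ^ a)] at h1
  have h2 : d ^ (k - 1) ≡ d ^ (k' - 1) [MOD p ^ (a + 1)] := by
    have h4 := (Nat.ModEq.mul_left (d ^ (k - 1)) hone).symm
    rw [mul_one, ← pow_add] at h4
    rwa [show k' - 1 = (k - 1) + (p - 1) * p ^ a * t by omega]
  have h3 := (Padic.norm_int_le_pow_iff_dvd (p := p) _ _).2 (Nat.modEq_iff_dvd.1 h2)
  push_cast at h3
  exact h3

/-- **The divisor sums of large weight tend to `σ*`**, uniformly. -/
theorem norm_sigma_sub {k k' a n : ℕ} (hk : 1 ≤ k) (hk' : a + 2 ≤ k')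
    (h : (((p - 1) * p ^ a : ℕ) : ℤ) ∣ (k' : ℤ) - (k : ℤ)) :
    ‖((σ (k' - 1) n : ℕ) : ℚ_[p]) - (starSum p k n : ℚ_[p])‖ ≤
      (p : ℝ) ^ (-((a + 1 : ℕ) : ℤ)) := by
  rw [ArithmeticFunction.sigma_apply, starSum, Nat.cast_sum, Nat.cast_sum, Finset.sum_filter,
    ← Finset.sum_sub_distrib]
  refine IsUltrametricDist.norm_sum_le_of_forall_le_of_nonneg (zpow_pos' _).le fun d _ => ?_
  by_cases hd : p ∣ d
  · obtain ⟨c, rfl⟩ := hd
    have hc : ‖((c : ℕ) : ℚ_[p])‖ ≤ 1 := by simpa using Padic.norm_int_le_one (p := p) (c : ℤ)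
    rw [if_neg (not_not.2 (dvd_mul_right p c)), sub_zero, Nat.cast_pow, Nat.cast_mul, norm_pow,
      norm_mul, Padic.norm_p, mul_pow, inv_pow, zpow_neg, zpow_natCast]
    refine (mul_le_of_le_one_right (by positivity) (pow_le_one₀ (norm_nonneg _) hc)).trans ?_
    exact inv_anti₀ (pow_pos (zero_lt_one.trans one_lt_cast) _)
      (pow_le_pow_right₀ one_lt_cast.le (by omega))
  · rw [if_pos hd, Nat.cast_pow, Nat.cast_pow]
    exact norm_pow_sub hd hk (by omega) h

variable {κ : Weights p}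

/-- Large even weights near `κ`. -/
theorem exists_even_near (h5 : 5 ≤ p) {j : ℕ} (hj : κ.1 = ((2 * j : ℕ) : ZMod (p - 1))) :
    ∃ K : ℕ → ℕ, ∀ i, Even (K i) ∧ 4 ≤ K i ∧ i ≤ K i ∧ Near κ i (K i) := by
  have hp : p.Prime := Fact.out
  have hu : IsUnit (((p - 1 : ℕ)) : ℤ_[p]) := by
    rw [PadicInt.isUnit_iff, PadicInt.norm_def]
    refine le_antisymm (by exact_mod_cast Padic.norm_int_le_one (p := p) ((p - 1 : ℕ) : ℤ))
      (not_lt.1 fun hlt => ?_)
    have hd := (Padic.norm_intCast_lt_one_iff (p := p) (k := ((p - 1 : ℕ) : ℤ))).1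
      (by exact_mod_cast hlt)
    have := Nat.le_of_dvd (by omega) (Int.natCast_dvd_natCast.1 hd)
    omega
  obtain ⟨u, hu⟩ := hu
  obtain ⟨x, hx⟩ : ∃ x : ℤ_[p], x = (κ.2 - ((2 * j : ℕ) : ℤ_[p])) * ↑u⁻¹ := ⟨_, rfl⟩
  refine ⟨fun i => 2 * j + (p - 1) * (x.appr i + p ^ i * (i + 4)), fun i => ?_⟩
  have h1 : i + 4 ≤ (p - 1) * (x.appr i + p ^ i * (i + 4)) :=
    ((Nat.le_mul_of_pos_left _ (pow_pos hp.pos i)).trans (Nat.le_add_left _ _)).trans
      (Nat.le_mul_of_pos_left _ (by omega))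
  refine ⟨(even_two_mul j).add ((hp.even_sub_one (by omega)).mul_right _),
    (Nat.le_add_left 4 i).trans (h1.trans (Nat.le_add_left _ _)),
    (Nat.le_add_right i 4).trans (h1.trans (Nat.le_add_left _ _)), ?_, ?_⟩
  · push_cast [ZMod.natCast_self, hj]
    ring
  · have e : ((2 * j + (p - 1) * (x.appr i + p ^ i * (i + 4)) : ℕ) : ℤ_[p]) - κ.2 =
        ((p - 1 : ℕ) : ℤ_[p]) * (-(x - (x.appr i : ℤ_[p])) + (p : ℤ_[p]) ^ i * ((i + 4 : ℕ) : ℤ_[p])) := by
      have hk2 : κ.2 = ((2 * j : ℕ) : ℤ_[p]) + ((p - 1 : ℕ) : ℤ_[p]) * x := by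
        rw [hx, ← hu, mul_left_comm, Units.mul_inv, mul_one, add_sub_cancel]
      rw [hk2]
      push_cast
      ring
    rw [e, norm_mul]
    refine (mul_le_of_le_one_left (norm_nonneg _) (PadicInt.norm_le_one _)).trans
      ((PadicInt.nonarchimedean _ _).trans (max_le ?_ ?_))
    · rw [norm_neg, PadicInt.norm_le_pow_iff_mem_span_pow]
      exact PadicInt.appr_spec i x
    · rw [norm_mul, PadicInt.norm_p_pow]
      exact mul_le_of_le_one_right (zpow_pos' _).le (PadicInt.norm_le_one _)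

/-- **The `p`-adic Eisenstein series** of weight `κ`. -/
theorem eisenstein_family (h5 : 5 ≤ p) {j : ℕ} (hj : κ.1 = ((2 * j : ℕ) : ZMod (p - 1)))
    (hκ : κ ≠ 0) : ∃ G : PowerSeries ℚ_[p], IsPadicForm G κ ∧
      ∀ k : ℕ → ℕ, (∀ i, Even (k i)) → (∀ i, 4 ≤ k i) → Tendsto k atTop atTop → WeightsTo k κ →
        SeriesTendsto (fun i => toQp p (eisSer (k i))) G := by
  obtain ⟨K, hK⟩ := exists_even_near h5 hj
  have hclose : ∀ a k k' n : ℕ, Near κ a k → Near κ a k' → a + 2 ≤ k → a + 2 ≤ k' →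
      ‖((σ (k - 1) n : ℕ) : ℚ_[p]) - ((σ (k' - 1) n : ℕ) : ℚ_[p])‖ ≤
        (p : ℝ) ^ (-((a + 1 : ℕ) : ℤ)) := fun a k k' n h h' hk hk' => by
    rw [← sub_sub_sub_cancel_right _ _ ((starSum p k n : ℕ) : ℚ_[p]), sub_eq_add_neg (_ - _)]
    refine (Padic.nonarchimedean _ _).trans (max_le (norm_sigma_sub (by omega) hk (by simp)) ?_)
    rw [norm_neg]
    exact norm_sigma_sub (by omega) hk' (h'.dvd h)
  have hKev : ∀ a, ∀ᶠ i in atTop, Near κ a (K i) ∧ a + 2 ≤ K i := fun a =>
    eventually_atTop.2 ⟨a + 2, fun i hi =>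
      ⟨(hK i).2.2.2.mono (by omega), hi.trans (hK i).2.2.1⟩⟩
  have hlim : ∀ n, ∃ u, Tendsto (fun i => ((σ (K i - 1) n : ℕ) : ℚ_[p])) atTop (𝓝 u) := fun n => by
    refine cauchySeq_tendsto_of_complete (Metric.cauchySeq_iff.2 fun ε hε => ?_)
    obtain ⟨a, ha⟩ := exists_pow_neg_lt (p := p) hε
    obtain ⟨M, hM⟩ := eventually_atTop.1 (hKev a)
    refine ⟨M, fun i hi i' hi' => ?_⟩
    rw [dist_eq_norm]
    exact ((hclose a _ _ n (hM i hi).1 (hM i' hi').1 (hM i hi).2 (hM i' hi').2).trans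
      (pow_neg_mono (Nat.le_succ a))).trans_lt ha
  choose u hu using hlim
  have key : ∀ k : ℕ → ℕ, (∀ i, Even (k i)) → (∀ i, 4 ≤ k i) → Tendsto k atTop atTop →
      WeightsTo k κ → ∃ F : PowerSeries ℚ_[p], IsPadicForm F κ ∧ (∀ n ≠ 0, coeff n F = u n) ∧
        SeriesTendsto (fun i => toQp p (eisSer (k i))) F := fun k hev h4 htop hk => by
    refine constant_limit h5 (fun i => isRatForm_eisSer (hev i) (h4 i)) hk hκ fun ε hε => ?_
    obtain ⟨a, ha⟩ := exists_pow_neg_lt (p := p) hε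
    filter_upwards [hk a, htop.eventually (eventually_ge_atTop (a + 2))] with i hi hi2 n hn
    simp only [eisSer, coeff_mk, if_neg hn, Rat.cast_natCast]
    refine le_of_tendsto ((hu n).const_sub _).norm ?_
    filter_upwards [hKev a] with l hl
    exact ((hclose a _ _ n hi hl.1 hi2 hl.2).trans (pow_neg_mono (Nat.le_succ a))).trans ha.le
  obtain ⟨G, hG, hGu, -⟩ := key K (fun i => (hK i).1) (fun i => (hK i).2.1)
    (tendsto_atTop_mono (fun i => (hK i).2.2.1) tendsto_id)
    fun a => eventually_atTop.2 ⟨a, fun i hi => (hK i).2.2.2.mono hi⟩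
  refine ⟨G, hG, fun k hev h4 htop hk => ?_⟩
  obtain ⟨F, hF, hFu, hFl⟩ := key k hev h4 htop hk
  rwa [hG.eq_of_higher h5 hF hκ fun n hn => (hGu n hn).trans (hFu n hn).symm]

theorem natWeight_ne_zero {k : ℕ} (hk : k ≠ 0) : natWeight p k ≠ 0 := fun e =>
  hk (by simpa [natWeight] using congrArg Prod.snd e)

/-- **`G*_k` is the limit of the Eisenstein series**, `k ≥ 2` even. -/
theorem eisStar_limit (h5 : 5 ≤ p) {k : ℕ} (hev : Even k) (hk : 2 ≤ k) :
    IsPadicForm (toQp p (eisStar p k)) (natWeight p k) ∧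
      ∀ K : ℕ → ℕ, (∀ i, Even (K i)) → (∀ i, 4 ≤ K i) → Tendsto K atTop atTop →
        WeightsTo K (natWeight p k) →
          SeriesTendsto (fun i => toQp p (eisSer (K i))) (toQp p (eisStar p k)) := by
  have hp : p.Prime := Fact.out
  obtain ⟨j, hj⟩ := hev.two_dvd
  obtain ⟨G, hG, hGl⟩ := eisenstein_family (p := p) (κ := natWeight p k) (j := j) h5
    (by rw [natWeight, hj]) (natWeight_ne_zero (by omega))
  obtain ⟨L, hL⟩ : ∃ L : ℕ → ℕ, ∀ i, L i = k + (p - 1) * p ^ i := ⟨_, fun _ => rfl⟩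
  have hLi : ∀ i, i + 4 ≤ L i := fun i => by
    have h1 : i + 1 ≤ p ^ i := Nat.lt_pow_self hp.one_lt
    have h2 : 3 * p ^ i ≤ (p - 1) * p ^ i := Nat.mul_le_mul_right _ (by omega)
    rw [hL]
    omega
  have hLev : ∀ i, Even (L i) := fun i => by
    rw [hL]; exact hev.add ((hp.even_sub_one (by omega)).mul_right _)
  have hLd : ∀ a i, a ≤ i → (((p - 1) * p ^ a : ℕ) : ℤ) ∣ (L i : ℤ) - (k : ℤ) := fun a i hi => by
    rw [hL, show (((k + (p - 1) * p ^ i : ℕ)) : ℤ) - (k : ℤ) = (((p - 1) * p ^ i : ℕ) : ℤ) by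
      push_cast; ring]
    exact Int.natCast_dvd_natCast.2 (Nat.mul_dvd_mul_left _ (pow_dvd_pow _ hi))
  have hLw : WeightsTo L (natWeight p k) := fun a => eventually_atTop.2
    ⟨a, fun i hi => (near_natWeight k a).of_dvd (hLd a i hi)⟩
  have hlimL := hGl L hLev (fun i => le_trans (by omega) (hLi i))
    (tendsto_atTop_mono (fun i => (Nat.le_add_right i 4).trans (hLi i)) tendsto_id) hLw
  have hhigh : ∀ n ≠ 0, coeff n G = coeff n (toQp p (eisStar p k)) := fun n hn => by
    refine sub_eq_zero.1 (norm_eq_zero_of_le fun a => ?_)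
    obtain ⟨i, hi, hia⟩ := ((hlimL _ (zpow_pos' (p := p) (-(a : ℤ)))).and
      (eventually_ge_atTop a)).exists
    have h1 := hi n
    rw [map_sub, coeff_toQp, eisSer, coeff_mk, if_neg hn, Rat.cast_natCast] at h1
    rw [coeff_toQp, eisStar, coeff_mk, if_neg hn, Rat.cast_natCast,
      ← sub_sub_sub_cancel_left (starSum p k n : ℚ_[p]) (coeff n G)
        ((σ (L i - 1) n : ℕ) : ℚ_[p]), sub_eq_add_neg]
    refine (Padic.nonarchimedean _ _).trans (max_le ?_ (by rw [norm_neg]; exact h1))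
    exact (norm_sigma_sub (by omega) (by have := hLi i; omega) (hLd a i hia)).trans
      (pow_neg_mono (Nat.le_succ a))
  suffices h0 : coeff 0 G = coeff 0 (toQp p (eisStar p k)) by
    have e : G = toQp p (eisStar p k) := PowerSeries.ext fun n =>
      (eq_or_ne n 0).elim (fun e => e ▸ h0) (hhigh n)
    exact ⟨e ▸ hG, e ▸ hGl⟩
  rcases Nat.eq_or_lt_of_le hk with rfl | hk'
  · -- weight two: Kummer's congruences
    have ht : Tendsto (fun i => ((coeff 0 (eisSer (L i)) : ℚ) : ℚ_[p])) atTop (𝓝 (coeff 0 G)) := by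
      refine tendsto_iff_norm_sub_tendsto_zero.2 (Metric.tendsto_atTop.2 fun ε hε => ?_)
      obtain ⟨N, hN⟩ := eventually_atTop.1 (hlimL (ε / 2) (half_pos hε))
      refine ⟨N, fun i hi => ?_⟩
      have h1 := hN i hi 0
      rw [map_sub, coeff_toQp] at h1
      rw [Real.dist_eq, sub_zero, abs_of_nonneg (norm_nonneg _)]
      linarith
    have hpp : Tendsto (fun i => ((p : ℚ_[p])) ^ (L i - 1)) atTop (𝓝 0) :=
      (tendsto_pow_atTop_nhds_zero_of_norm_lt_one Padic.norm_p_lt_one).comp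
        (tendsto_atTop_mono (fun i => show i ≤ L i - 1 by have := hLi i; omega) tendsto_id)
    have hX : Tendsto (fun i => (1 - (p : ℚ_[p]) ^ (L i - 1)) *
        ((coeff 0 (eisSer (L i)) : ℚ) : ℚ_[p])) atTop (𝓝 (coeff 0 (toQp p (eisStar p 2)))) := by
      refine tendsto_iff_norm_sub_tendsto_zero.2 (Metric.tendsto_atTop.2 fun ε hε => ?_)
      obtain ⟨a, ha⟩ := exists_pow_neg_lt (p := p) hε
      refine ⟨a, fun i hi => ?_⟩
      have hdvd : ¬ p - 1 ∣ L i := fun hd => by
        have h2 : p - 1 ∣ 2 :=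
          (Nat.dvd_add_left (dvd_mul_right (p - 1) (p ^ i))).1 (by rwa [hL] at hd)
        have := Nat.le_of_dvd two_pos h2
        omega
      obtain ⟨t, ht, e⟩ := FA.Summary.kummer_congruence_general p h5 (a + 1) (L i) 2 (by omega)
        (by have := hLi i; omega) le_rfl (hLev i) even_two hdvd
        ((Nat.modEq_iff_dvd' (by have := hLi i; omega)).2 (by
          rw [hL, Nat.add_sub_cancel_left, Nat.add_sub_cancel, mul_comm (p ^ a)]
          exact Nat.mul_dvd_mul_left _ (pow_dvd_pow _ hi))).symm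
      have e' : (1 - (p : ℚ_[p]) ^ (L i - 1)) * ((coeff 0 (eisSer (L i)) : ℚ) : ℚ_[p]) -
          coeff 0 (toQp p (eisStar p 2)) = ((-(1 / 2) * ((p : ℚ) ^ (a + 1) * t) : ℚ) : ℚ_[p]) := by
        rw [← e]
        simp only [coeff_toQp, eisSer, eisStar, coeff_mk, if_pos]
        push_cast
        ring
      rw [Real.dist_eq, sub_zero, abs_of_nonneg (norm_nonneg _), e', Rat.cast_mul, norm_mul,
        Rat.cast_mul, Rat.cast_pow, Rat.cast_natCast, norm_mul, Padic.norm_p_pow]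
      refine lt_of_le_of_lt ?_ ((pow_neg_mono (Nat.le_succ a)).trans_lt ha)
      refine (mul_le_of_le_one_left (by positivity) ?_).trans
        (mul_le_of_le_one_right (zpow_pos' _).le (Padic.norm_rat_le_one ht))
      refine Padic.norm_rat_le_one ?_
      rw [Rat.den_neg_eq_den]
      norm_num
      intro hd
      have := Nat.le_of_dvd two_pos hd
      omega
    have hY : Tendsto (fun i => (1 - (p : ℚ_[p]) ^ (L i - 1)) *
        ((coeff 0 (eisSer (L i)) : ℚ) : ℚ_[p])) atTop (𝓝 (coeff 0 G)) := by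
      simpa using (hpp.const_sub 1).mul ht
    exact tendsto_nhds_unique hY hX
  · -- weight at least four: `U G_k - p ^ (k - 1) G_k`
    have h4 : 4 ≤ k := by
      obtain ⟨c, hc⟩ := hev
      omega
    have hform : IsPadicForm (uSer p (toQp p (eisSer k)) -
        C ((p : ℚ_[p]) ^ (k - 1)) * toQp p (eisSer k)) (natWeight p k) :=
      ((isRatForm_eisSer hev h4).isPadicForm.uSer h5).sub h5
        ((isRatForm_eisSer hev h4).isPadicForm.C_mul _)
    have e : uSer p (toQp p (eisSer k)) - C ((p : ℚ_[p]) ^ (k - 1)) * toQp p (eisSer k) =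
        toQp p (eisStar p k) := PowerSeries.ext fun n => by
      simp only [map_sub, coeff_uSer, coeff_C_mul, coeff_toQp, eisSer, eisStar, coeff_mk]
      rcases eq_or_ne n 0 with rfl | hn
      · simp only [mul_zero, if_pos]
        push_cast
        ring
      · rw [if_neg hn, if_neg (mul_ne_zero hp.ne_zero hn), if_neg hn, sigma_split k hn]
        push_cast
        ring
    exact congrArg _ ((hG.eq_of_higher h5 (e ▸ hform) (natWeight_ne_zero (by omega)) hhigh))

/-- `E₂` as a rational series. -/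
def eTwoRat : PowerSeries ℚ := eTwoInt.map (Int.castRingHom ℚ)

theorem eTwoRat_eq : eTwoRat = (-24 : ℚ) • eisSer 2 := PowerSeries.ext fun n => by
  rw [eTwoRat, coeff_map, eTwoInt, coeff_mk, PowerSeries.coeff_smul, eisSer, coeff_mk]
  split_ifs <;> norm_num [bernoulli_two]

/-- `G₂ = G*₂ + p V G₂`. -/
theorem eisTwo_split : toQp p (eisSer 2) =
    toQp p (eisStar p 2) + C (p : ℚ_[p]) * vSer p (toQp p (eisSer 2)) := PowerSeries.ext fun n => by
  simp only [map_add, coeff_C_mul, coeff_vSer, coeff_toQp, eisSer, eisStar, coeff_mk]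
  rcases eq_or_ne n 0 with rfl | hn
  · simp only [dvd_zero, Nat.zero_div, if_pos]
    push_cast
    ring
  · rw [if_neg hn, if_neg hn, sigma_star (p := p) 2 hn]
    by_cases h : p ∣ n
    · rw [if_pos h, if_pos h, if_neg (fun e => hn (Nat.eq_zero_of_dvd_of_div_eq_zero h e))]
      push_cast
      ring
    · rw [if_neg h, if_neg h]
      push_cast
      ring

/-- **`G₂`, hence `E₂`, is a `p`-adic form of weight `2`.** -/
theorem isPadicForm_eisTwo (h5 : 5 ≤ p) : IsPadicForm (toQp p (eisSer 2)) (natWeight p 2) := by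
  have hstar := (eisStar_limit (p := p) h5 even_two le_rfl).1
  obtain ⟨R, hR0, hRs⟩ : ∃ R : ℕ → PowerSeries ℚ_[p], R 0 = toQp p (eisStar p 2) ∧
      ∀ r, R (r + 1) = toQp p (eisStar p 2) + C (p : ℚ_[p]) * vSer p (R r) :=
    ⟨fun r => Nat.rec (toQp p (eisStar p 2))
      (fun _ g => toQp p (eisStar p 2) + C (p : ℚ_[p]) * vSer p g) r, rfl, fun _ => rfl⟩
  have hRf : ∀ r, IsPadicForm (R r) (natWeight p 2) := fun r => by
    induction r with
    | zero => exact hR0 ▸ hstar
    | succ r ih => exact hRs r ▸ hstar.add h5 ((ih.vSer h5).C_mul _)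
  have hb : SupLe (toQp p (eisSer 2)) 1 := fun n => by
    rw [coeff_toQp, eisSer, coeff_mk]
    split_ifs
    · refine Padic.norm_rat_le_one ?_
      rw [bernoulli_two]
      norm_num
      intro hd
      have h24 : (p : ℕ) ∣ 2 ^ 3 * 3 := by norm_num; exact hd
      rcases (Fact.out : p.Prime).dvd_mul.1 h24 with h | h
      · exact absurd (Nat.le_of_dvd two_pos ((Fact.out : p.Prime).dvd_of_dvd_pow h)) (by omega)
      · exact absurd (Nat.le_of_dvd three_pos h) (by omega)
    · rw [Rat.cast_natCast]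
      exact_mod_cast Padic.norm_int_le_one (p := p) ((σ (2 - 1) n : ℕ) : ℤ)
  have hd : ∀ r : ℕ, SupLe (R r - toQp p (eisSer 2)) ((p : ℝ) ^ (-((r + 1 : ℕ) : ℤ))) := fun r => by
    have hn : ‖(p : ℚ_[p])‖ = (p : ℝ) ^ (-1 : ℤ) := by rw [Padic.norm_p, zpow_neg_one]
    induction r with
    | zero =>
      rw [hR0, show toQp p (eisStar p 2) - toQp p (eisSer 2) =
        -(C (p : ℚ_[p]) * vSer p (toQp p (eisSer 2))) by
          conv_lhs => arg 2; rw [eisTwo_split (p := p)]
          rw [sub_add_cancel_left]]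
      exact ((hb.vSer.C_mul _).neg).mono (by simp [hn])
    | succ r ih =>
      rw [hRs, show toQp p (eisStar p 2) + C (p : ℚ_[p]) * vSer p (R r) - toQp p (eisSer 2) =
        C (p : ℚ_[p]) * vSer p (R r - toQp p (eisSer 2)) by
          conv_lhs => arg 2; rw [eisTwo_split (p := p)]
          rw [add_sub_add_left_eq_sub, ← mul_sub, ← vSer_sub]]
      refine (ih.vSer.C_mul _).mono ?_
      rw [hn, ← zpow_add₀ (zero_lt_one.trans (one_lt_cast (p := p))).ne']
      exact zpow_le_zpow_right₀ one_lt_cast.le (by push_cast; omega)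
  refine IsPadicForm.of_approx fun a => ⟨R a, _, hRf a, rfl, ?_,
    (hd a).mono (pow_neg_mono (Nat.le_succ a))⟩
  rw [sub_self, norm_zero]
  exact (zpow_pos' _).le

theorem isPadicForm_eTwo (h5 : 5 ≤ p) : IsPadicForm (toQp p eTwoRat) (natWeight p 2) := by
  have := (isPadicForm_eisTwo (p := p) h5).C_mul (-24)
  rwa [show C (-24 : ℚ_[p]) * toQp p (eisSer 2) = toQp p eTwoRat by
    rw [eTwoRat_eq, PowerSeries.smul_eq_C_mul, map_mul]
    simp [toQp]] at this

/-- `q d/dq`. -/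
def thetaSer {R : Type*} [CommRing R] (f : PowerSeries R) : PowerSeries R :=
  PowerSeries.mk fun n => (n : R) * coeff n f

/-- Serre's derivative of a rational form. -/
theorem IsRatForm.serre {k : ℕ} {S : PowerSeries ℚ} (h : IsRatForm k S) :
    IsRatForm (k + 2) (thetaSer S - C ((k : ℚ) / 12) * (eTwoRat * S)) := by
  obtain ⟨Dn, T, F, hD, hF, hT⟩ := h.exists_int
  have hA : HasQ 1 ⇑F (T.map (Int.castRingHom ℂ)) := hF ▸ hasQ_form F
  have hS : HasQ 1 (normalizedDerivOfComplex ⇑F -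
      ((k : ℂ) / 12) • (EisensteinSeries.E2 * ⇑F))
      ((thetaInt T).map (Int.castRingHom ℂ) - ((k : ℂ) / 12) •
        (eTwoInt.map (Int.castRingHom ℂ) * T.map (Int.castRingHom ℂ))) :=
    (hasQ_deriv hA).sub ((hasQ_eTwo.mul one_pos hA).smul _)
  have hinv : ∀ γ : SL(2, ℤ), (normalizedDerivOfComplex ⇑F -
      ((k : ℂ) / 12) • (EisensteinSeries.E2 * ⇑F)) ∣[((k + 2 : ℕ) : ℤ)] γ =
      normalizedDerivOfComplex ⇑F - ((k : ℂ) / 12) • (EisensteinSeries.E2 * ⇑F) := fun γ => by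
    have e : normalizedDerivOfComplex ⇑F - ((k : ℂ) / 12) • (EisensteinSeries.E2 * ⇑F) =
        serreDerivative ((k : ℤ) : ℂ) ⇑F := by
      funext z
      simp only [serreDerivative_apply, Pi.sub_apply, Pi.smul_apply, Pi.mul_apply, smul_eq_mul,
        Int.cast_natCast]
      ring
    rw [e, Nat.cast_add, Nat.cast_ofNat]
    exact serreDerivative_slash_invariant F.holo' (F.slash_action_eq' _ ⟨γ, rfl⟩)
  have key : IsRatForm (k + 2) ((thetaInt T).map (Int.castRingHom ℚ) -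
      C ((k : ℚ) / 12) * (eTwoRat * T.map (Int.castRingHom ℚ))) := by
    refine isRatForm_of_hasQ hinv ?_
    convert hS using 1
    rw [map_sub, map_mul, map_mul, map_int_rat, map_int_rat, eTwoRat, map_int_rat, map_C,
      ← PowerSeries.smul_eq_C_mul]
    congr 2
    simp
  have hD' : (Dn : ℚ) ≠ 0 := Nat.cast_ne_zero.2 hD
  convert key.smul (Dn : ℚ)⁻¹ using 1
  rw [← hT, show (thetaInt T).map (Int.castRingHom ℚ) = (Dn : ℚ) • thetaSer S from
    PowerSeries.ext fun n => by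
      have h1 := congrArg (coeff n) hT
      simp only [PowerSeries.coeff_smul, coeff_map, eq_intCast, smul_eq_mul] at h1
      simp only [thetaInt, thetaSer, coeff_map, coeff_mk, PowerSeries.coeff_smul, eq_intCast,
        smul_eq_mul]
      push_cast
      linear_combination -(n : ℚ) * h1]
  rw [mul_smul_comm, mul_smul_comm, ← smul_sub, smul_smul, inv_mul_cancel₀ hD', one_smul]

theorem natWeight_add (k l : ℕ) : natWeight p k + natWeight p l = natWeight p (k + l) := by
  simp [natWeight]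

/-- **`θ` raises the weight by `2`.** -/
theorem IsPadicForm.theta (h5 : 5 ≤ p) {f : PowerSeries ℚ_[p]} (h : IsPadicForm f κ) :
    IsPadicForm (thetaSer f) (κ + natWeight p 2) := IsPadicForm.of_approx fun a => by
  obtain ⟨k, S, hS, hk, hd⟩ := h a
  refine ⟨thetaSer (toQp p S), natWeight p k + natWeight p 2, ?_, ?_, ?_, fun n => ?_⟩
  · have h1 := hS.serre.isPadicForm (p := p)
    have h2 := ((isPadicForm_eTwo h5).mul (hS.isPadicForm (p := p))).C_mul
      ((((k : ℚ) / 12 : ℚ)) : ℚ_[p])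
    rw [natWeight_add, add_comm 2 k] at h2
    rw [natWeight_add]
    have h3 := h1.add h5 h2
    convert h3 using 1
    refine PowerSeries.ext fun n => ?_
    rw [← map_mul (toQp p)]
    simp only [thetaSer, map_add, coeff_mk, coeff_toQp, map_sub, coeff_C_mul,
      Rat.cast_mul, Rat.cast_natCast]
    ring
  · rw [Prod.fst_add, Prod.fst_add]
    exact congrArg (· + _) hk.1
  · rw [Prod.snd_add, Prod.snd_add, add_sub_add_right_eq_sub]
    exact hk.2
  · rw [map_sub, thetaSer, thetaSer, coeff_mk, coeff_mk, ← mul_sub, ← map_sub, norm_mul]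
    exact (mul_le_of_le_one_left (norm_nonneg _)
      (by exact_mod_cast Padic.norm_int_le_one (p := p) (n : ℤ))).trans (hd n)

end FA.PadicForms

end
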