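import Fermat.Agent.TotallyRealKummer.ConstantTerm
import Mathlib.NumberTheory.Padics.PadicNumbers

/-!
# Forms of level one with rational expansions

Such forms have bounded denominators, so a form that is integral at `p` becomes integral at every
prime after multiplication by an integer prime to `p`.
-/

set_option autoImplicit false
set_option linter.unusedSectionVars false

noncomputable section

open UpperHalfPlane hiding I
open PowerSeries
open scoped MatrixGroups ModularForm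

namespace FA.PadicForms

open FA.Tau FA.Eis FA.SiegelKlingen

/-- The series of a level one form of weight `k` with rational coefficients. -/
def IsRatForm (k : ℕ) (S : PowerSeries ℚ) : Prop :=
  ∃ F : ModularForm 𝒮ℒ (k : ℤ), qExpansion 1 ⇑F = S.map (Rat.castHom ℂ)

theorem map_int_rat (T : PowerSeries ℤ) :
    (T.map (Int.castRingHom ℚ)).map (Rat.castHom ℂ) = T.map (Int.castRingHom ℂ) :=
  PowerSeries.ext fun n => by simp

theorem map_rat_injective : Function.Injective (PowerSeries.map (Rat.castHom ℂ)) :=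
  PowerSeries.map_injective _ Rat.cast_injective

/-- An invariant function with a rational expansion is a form. -/
theorem isRatForm_of_hasQ {k : ℕ} {f : ℍ → ℂ} (hinv : ∀ γ : SL(2, ℤ), f ∣[(k : ℤ)] γ = f)
    {S : PowerSeries ℚ} (h : HasQ 1 f (S.map (Rat.castHom ℂ))) : IsRatForm k S :=
  ⟨FA.ModField.levelOneForm f hinv (h.mdiff one_pos) (h.bdd one_pos), h.qExpansion_eq one_pos⟩

theorem IsRatForm.hasQ {k : ℕ} {S : PowerSeries ℚ} (h : IsRatForm k S) :
    ∃ F : ModularForm 𝒮ℒ (k : ℤ), HasQ 1 ⇑F (S.map (Rat.castHom ℂ)) := by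
  obtain ⟨F, hF⟩ := h
  exact ⟨F, hF ▸ hasQ_form F⟩

variable {k k' : ℕ} {S S' : PowerSeries ℚ}

theorem IsRatForm.smul (h : IsRatForm k S) (r : ℚ) : IsRatForm k (r • S) := by
  obtain ⟨F, hF⟩ := h.hasQ
  refine isRatForm_of_hasQ (f := ⇑((r : ℂ) • F))
    (fun γ => ((r : ℂ) • F).slash_action_eq' _ ⟨γ, rfl⟩) ?_
  rw [PowerSeries.smul_eq_C_mul, map_mul, map_C, ← PowerSeries.smul_eq_C_mul, FunLike.coe_smul]
  exact hF.smul _

theorem IsRatForm.add (h : IsRatForm k S) (h' : IsRatForm k S') : IsRatForm k (S + S') := by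
  obtain ⟨F, hF⟩ := h.hasQ
  obtain ⟨G, hG⟩ := h'.hasQ
  refine isRatForm_of_hasQ (f := ⇑(F + G)) (fun γ => (F + G).slash_action_eq' _ ⟨γ, rfl⟩) ?_
  rw [map_add, FunLike.coe_add]
  exact hF.add hG

theorem IsRatForm.sub (h : IsRatForm k S) (h' : IsRatForm k S') : IsRatForm k (S - S') := by
  have := h.add (h'.smul (-1))
  rw [sub_eq_add_neg]
  convert this using 2
  simp

theorem IsRatForm.mul (h : IsRatForm k S) (h' : IsRatForm k' S') :
    IsRatForm (k + k') (S * S') := by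
  obtain ⟨F, hF⟩ := h.hasQ
  obtain ⟨G, hG⟩ := h'.hasQ
  refine isRatForm_of_hasQ
    (f := ⇑(ModularForm.mcast (show ((k : ℤ) + (k' : ℤ)) = ((k + k' : ℕ) : ℤ) by push_cast; ring)
      (F.mul G)))
    (fun γ => (ModularForm.mcast _ _ : ModularForm 𝒮ℒ ((k + k' : ℕ) : ℤ)).slash_action_eq' _
      ⟨γ, rfl⟩) ?_
  rw [map_mul, ModularForm.coe_mcast, ModularForm.coe_mul]
  exact hF.mul one_pos hG

theorem isRatForm_C (r : ℚ) : IsRatForm 0 (C r) := by
  refine isRatForm_of_hasQ (f := fun _ => (r : ℂ))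
    (fun γ => (FA.ModField.slash_eq_iff_smul γ).2 fun z => by simp) ?_
  rw [map_C]
  exact HasQ.const _ _

theorem IsRatForm.pow (h : IsRatForm k S) (n : ℕ) : IsRatForm (n * k) (S ^ n) := by
  induction n with
  | zero => simpa using isRatForm_C 1
  | succ n ih => simpa [pow_succ, add_mul] using ih.mul h

/-- A form of weight zero is constant. -/
theorem IsRatForm.of_int {T : PowerSeries ℤ} {F : ModularForm 𝒮ℒ (k : ℤ)}
    (h : qExpansion 1 ⇑F = T.map (Int.castRingHom ℂ)) :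
    IsRatForm k (T.map (Int.castRingHom ℚ)) :=
  ⟨F, by rw [h, map_int_rat]⟩

/-- **Bounded denominators.** -/
theorem IsRatForm.exists_int (h : IsRatForm k S) : ∃ (D : ℕ) (T : PowerSeries ℤ)
    (F : ModularForm 𝒮ℒ (k : ℤ)), D ≠ 0 ∧ qExpansion 1 ⇑F = T.map (Int.castRingHom ℂ) ∧
      (D : ℚ) • S = T.map (Int.castRingHom ℚ) := by
  classical
  obtain ⟨F, hF⟩ := h
  obtain ⟨x, hx⟩ := Finsupp.mem_span_range_iff_exists_finsupp.1
    (LevelOneRing.mem_span (k + 1) (k : ℤ) (by omega) F)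
  rw [Finsupp.sum] at hx
  have hA : S.map (Rat.castHom ℂ) =
      ∑ i ∈ x.support, x i • (monoInt i.1).map (Int.castRingHom ℂ) := by
    rw [← hF]
    refine (hasQ_form F).unique one_pos ?_
    rw [← hx]
    exact HasQ.sum _ fun i _ => (hasQ_monomial (k : ℤ) i).smul (x i)
  obtain ⟨φ, hφ⟩ := (Algebra.linearMap ℚ ℂ).exists_leftInverse_of_injective
    (LinearMap.ker_eq_bot.2 (fun a b hab => Rat.cast_injective (α := ℂ) (by simpa using hab)))
  have hφ' : ∀ q : ℚ, φ (q : ℂ) = q := fun q => by simpa using LinearMap.congr_fun hφ q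
  obtain ⟨r, hr⟩ : ∃ r, r = fun i => φ (x i) := ⟨_, rfl⟩
  have hS : S = ∑ i ∈ x.support, r i • (monoInt i.1).map (Int.castRingHom ℚ) := by
    refine PowerSeries.ext fun m => ?_
    have h1 := congrArg (fun A => φ (PowerSeries.coeff m A)) hA
    simp only [coeff_map, map_sum, PowerSeries.coeff_smul, eq_intCast, eq_ratCast, hφ',
      smul_eq_mul] at h1
    simp only [h1, map_sum, PowerSeries.coeff_smul, coeff_map, eq_intCast, smul_eq_mul, hr]
    refine Finset.sum_congr rfl fun i _ => ?_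
    rw [show x i * ((coeff m (monoInt i.1) : ℤ) : ℂ) = (coeff m (monoInt i.1) : ℤ) • x i by
      rw [zsmul_eq_mul, mul_comm], map_zsmul, zsmul_eq_mul, mul_comm]
  obtain ⟨D, hD⟩ : ∃ D : ℕ, D = ∏ i ∈ x.support, (r i).den := ⟨_, rfl⟩
  have hint : ∀ i ∈ x.support, ∃ z : ℤ, (D : ℚ) * r i = z := fun i hi => by
    obtain ⟨e, he⟩ : (r i).den ∣ D := hD ▸ Finset.dvd_prod_of_mem (fun i => (r i).den) hi
    refine ⟨(e : ℤ) * (r i).num, ?_⟩
    rw [he]
    push_cast
    linear_combination (e : ℚ) * Rat.den_mul_eq_num (r i)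
  choose! z hz using hint
  obtain ⟨T, hT⟩ : ∃ T : PowerSeries ℤ, T = ∑ i ∈ x.support, z i • monoInt i.1 := ⟨_, rfl⟩
  have hDS : (D : ℚ) • S = T.map (Int.castRingHom ℚ) := by
    rw [hS, hT, map_sum, Finset.smul_sum]
    refine Finset.sum_congr rfl fun i hi => ?_
    rw [map_zsmul, smul_smul, hz i hi, Int.cast_smul_eq_zsmul]
  refine ⟨D, T, (D : ℂ) • F, hD ▸ Finset.prod_ne_zero_iff.2 fun i _ => (r i).den_ne_zero, ?_, hDS⟩
  rw [FunLike.coe_smul, ((hasQ_form F).smul (D : ℂ)).qExpansion_eq one_pos, hF, ← map_int_rat,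
    ← hDS, PowerSeries.smul_eq_C_mul, PowerSeries.smul_eq_C_mul, map_mul, map_C,
    map_natCast (Rat.castHom ℂ)]

/-! ### Sup norms -/

variable {p : ℕ} [Fact p.Prime]

variable (p) in
/-- The series over `ℚ_p`. -/
def toQp : PowerSeries ℚ →+* PowerSeries ℚ_[p] := PowerSeries.map (Rat.castHom ℚ_[p])

@[simp]
theorem coeff_toQp (n : ℕ) (T : PowerSeries ℚ) : coeff n (toQp p T) = ((coeff n T : ℚ) : ℚ_[p]) := by
  simp [toQp]

/-- All coefficients have norm at most `C`. -/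
def SupLe (f : PowerSeries ℚ_[p]) (C : ℝ) : Prop := ∀ n, ‖coeff n f‖ ≤ C

theorem SupLe.mono {f : PowerSeries ℚ_[p]} {C C' : ℝ} (h : SupLe f C) (hC : C ≤ C') : SupLe f C' :=
  fun n => (h n).trans hC

theorem SupLe.nonneg {f : PowerSeries ℚ_[p]} {C : ℝ} (h : SupLe f C) : 0 ≤ C :=
  (norm_nonneg _).trans (h 0)

theorem SupLe.add {f g : PowerSeries ℚ_[p]} {C : ℝ} (hf : SupLe f C) (hg : SupLe g C) :
    SupLe (f + g) C := fun n => by
  rw [map_add]
  exact (Padic.nonarchimedean _ _).trans (max_le (hf n) (hg n))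

theorem SupLe.neg {f : PowerSeries ℚ_[p]} {C : ℝ} (hf : SupLe f C) : SupLe (-f) C := fun n => by
  rw [map_neg, norm_neg]
  exact hf n

theorem SupLe.sub {f g : PowerSeries ℚ_[p]} {C : ℝ} (hf : SupLe f C) (hg : SupLe g C) :
    SupLe (f - g) C := sub_eq_add_neg f g ▸ hf.add hg.neg

theorem SupLe.C_mul {f : PowerSeries ℚ_[p]} {C : ℝ} (hf : SupLe f C) (c : ℚ_[p]) :
    SupLe (PowerSeries.C c * f) (‖c‖ * C) := fun n => by
  rw [coeff_C_mul, norm_mul]
  exact mul_le_mul_of_nonneg_left (hf n) (norm_nonneg _)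

theorem SupLe.mul {f g : PowerSeries ℚ_[p]} {C D : ℝ} (hf : SupLe f C) (hg : SupLe g D) :
    SupLe (f * g) (C * D) := fun n => by
  rw [coeff_mul]
  refine IsUltrametricDist.norm_sum_le_of_forall_le_of_nonneg (mul_nonneg hf.nonneg hg.nonneg)
    fun x _ => ?_
  rw [norm_mul]
  exact mul_le_mul (hf _) (hg _) (norm_nonneg _) hf.nonneg

theorem supLe_int (T : PowerSeries ℤ) : SupLe (toQp p (T.map (Int.castRingHom ℚ))) 1 := fun n => by
  rw [coeff_toQp, coeff_map, eq_intCast, Rat.cast_intCast]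
  exact Padic.norm_int_le_one _

/-- A form has bounded coefficients. -/
theorem IsRatForm.exists_supLe (h : IsRatForm k S) : ∃ C : ℝ, SupLe (toQp p S) C := by
  obtain ⟨D, T, -, hD, -, hT⟩ := h.exists_int
  refine ⟨‖(D : ℚ_[p])⁻¹‖ * 1, ?_⟩
  have : S = C ((D : ℚ))⁻¹ * T.map (Int.castRingHom ℚ) := by
    rw [← hT, ← PowerSeries.smul_eq_C_mul, smul_smul, inv_mul_cancel₀ (Nat.cast_ne_zero.2 hD),
      one_smul]
  rw [this, map_mul, toQp, map_C]
  have h2 := (supLe_int (p := p) T).C_mul ((D : ℚ_[p])⁻¹)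
  rwa [eq_ratCast, Rat.cast_inv, Rat.cast_natCast]

/-- **An integral form**: integral at `p` and an integer prime to `p` clears the others. -/
theorem IsRatForm.exists_prime_to (h : IsRatForm k S) (hb : SupLe (toQp p S) 1) :
    ∃ (D : ℕ) (T : PowerSeries ℤ) (F : ModularForm 𝒮ℒ (k : ℤ)), ¬p ∣ D ∧
      qExpansion 1 ⇑F = T.map (Int.castRingHom ℂ) ∧
      (D : ℚ) • S = T.map (Int.castRingHom ℚ) := by
  have hp : p.Prime := Fact.out
  obtain ⟨D₀, T₀, F₀, hD₀, hF₀, hT₀⟩ := h.exists_int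
  obtain ⟨e, D, hD, rfl⟩ := Nat.exists_eq_pow_mul_and_not_dvd hD₀ p hp.ne_one
  have hdvd : ∀ n, (p : ℤ) ^ e ∣ coeff n T₀ := fun n => by
    have h1 := congrArg (coeff n) hT₀
    rw [PowerSeries.coeff_smul, coeff_map, eq_intCast, smul_eq_mul] at h1
    have h2 : ‖((coeff n T₀ : ℤ) : ℚ_[p])‖ ≤ (p : ℝ) ^ (-(e : ℤ)) := by
      rw [← Rat.cast_intCast, ← h1, Rat.cast_mul, Nat.cast_mul, Rat.cast_mul, Nat.cast_pow,
        Rat.cast_pow, Rat.cast_natCast, Rat.cast_natCast, norm_mul, norm_mul, Padic.norm_p_pow]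
      refine mul_le_of_le_one_right (by positivity) ?_ |>.trans
        (mul_le_of_le_one_right (by positivity) ?_)
      · simpa using hb n
      · exact_mod_cast Padic.norm_int_le_one (p := p) (D : ℤ)
    exact_mod_cast (Padic.norm_int_le_pow_iff_dvd _ _).1 h2
  choose t ht using hdvd
  obtain ⟨T, hT⟩ : ∃ T : PowerSeries ℤ, T = PowerSeries.mk t := ⟨_, rfl⟩
  have hpe : (p : ℚ) ^ e ≠ 0 := pow_ne_zero _ (Nat.cast_ne_zero.2 hp.ne_zero)
  have hpe' : (p : ℂ) ^ e ≠ 0 := pow_ne_zero _ (Nat.cast_ne_zero.2 hp.ne_zero)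
  refine ⟨D, T, ((p : ℂ) ^ e)⁻¹ • F₀, hD, ?_, ?_⟩
  · rw [FunLike.coe_smul, ((hasQ_form F₀).smul _).qExpansion_eq one_pos, hF₀]
    refine PowerSeries.ext fun n => ?_
    rw [PowerSeries.coeff_smul, coeff_map, coeff_map, hT, coeff_mk, eq_intCast, eq_intCast, ht n,
      smul_eq_mul]
    push_cast
    rw [inv_mul_cancel_left₀ hpe']
  · refine PowerSeries.ext fun n => ?_
    have h1 := congrArg (coeff n) hT₀
    rw [PowerSeries.coeff_smul, coeff_map, eq_intCast, smul_eq_mul, ht n] at h1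
    rw [PowerSeries.coeff_smul, coeff_map, hT, coeff_mk, eq_intCast, smul_eq_mul]
    push_cast at h1 ⊢
    refine mul_left_cancel₀ hpe ?_
    linear_combination h1

end FA.PadicForms

end
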