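import Fermat.Agent.PadicForms.Weight
import Mathlib.NumberTheory.Padics.RingHoms

/-!
# Limits of forms

A `p`-adic form is a uniform limit of rational forms whose weights converge in the weight space
`ℤ/(p - 1) × ℤ_p`. For a limit that is not zero the weights converge automatically; off weight zero
the higher coefficients control the constant.
-/

set_option autoImplicit false
set_option linter.unusedSectionVars false

noncomputable section

open PowerSeries Filter Topology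

namespace FA.PadicForms

variable (p : ℕ) [Fact p.Prime]

/-- The weight space. -/
abbrev Weights : Type := ZMod (p - 1) × ℤ_[p]

variable {p}

/-- The integer `k` is congruent to `κ` modulo `(p - 1) p ^ a`. -/
def Near (κ : Weights p) (a k : ℕ) : Prop :=
  (k : ZMod (p - 1)) = κ.1 ∧ ‖(k : ℤ_[p]) - κ.2‖ ≤ (p : ℝ) ^ (-(a : ℤ))

/-- Weights tending to `κ`. -/
def WeightsTo (k : ℕ → ℕ) (κ : Weights p) : Prop := ∀ a : ℕ, ∀ᶠ i in atTop, Near κ a (k i)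

/-- Uniform convergence of series. -/
def SeriesTendsto (S : ℕ → PowerSeries ℚ_[p]) (f : PowerSeries ℚ_[p]) : Prop :=
  ∀ ε : ℝ, 0 < ε → ∀ᶠ i in atTop, SupLe (S i - f) ε

/-- **A `p`-adic modular form** of level one and weight `κ`, in the sense of Serre. -/
def IsPadicForm (f : PowerSeries ℚ_[p]) (κ : Weights p) : Prop :=
  ∀ a : ℕ, ∃ (k : ℕ) (S : PowerSeries ℚ), IsRatForm k S ∧ Near κ a k ∧
    SupLe (toQp p S - f) ((p : ℝ) ^ (-(a : ℤ)))

theorem one_lt_cast : (1 : ℝ) < p := by exact_mod_cast (Fact.out : p.Prime).one_lt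

theorem zpow_pos' (a : ℤ) : (0 : ℝ) < (p : ℝ) ^ a := zpow_pos (zero_lt_one.trans one_lt_cast) _

theorem pow_neg_mono {a b : ℕ} (h : a ≤ b) : (p : ℝ) ^ (-(b : ℤ)) ≤ (p : ℝ) ^ (-(a : ℤ)) :=
  zpow_le_zpow_right₀ one_lt_cast.le (by omega)

theorem exists_pow_neg_lt {ε : ℝ} (hε : 0 < ε) : ∃ a : ℕ, (p : ℝ) ^ (-(a : ℤ)) < ε := by
  obtain ⟨a, ha⟩ := exists_pow_lt_of_lt_one hε (inv_lt_one_of_one_lt₀ (one_lt_cast (p := p)))
  exact ⟨a, by rwa [zpow_neg, zpow_natCast, ← inv_pow]⟩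

theorem norm_eq_zero_of_le {x : ℚ_[p]} (h : ∀ a : ℕ, ‖x‖ ≤ (p : ℝ) ^ (-(a : ℤ))) : x = 0 := by
  by_contra hne
  obtain ⟨a, ha⟩ := exists_pow_neg_lt (p := p) (norm_pos_iff.2 hne)
  exact absurd (h a) ha.not_ge

/-- The distance of two series. -/
theorem SupLe.trans {f g h : PowerSeries ℚ_[p]} {C : ℝ} (h1 : SupLe (f - g) C)
    (h2 : SupLe (g - h) C) : SupLe (f - h) C := sub_add_sub_cancel f g h ▸ h1.add h2

theorem SupLe.symm {f g : PowerSeries ℚ_[p]} {C : ℝ} (h : SupLe (f - g) C) : SupLe (g - f) C :=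
  neg_sub f g ▸ h.neg

theorem SupLe.of_near {f g : PowerSeries ℚ_[p]} {C : ℝ} (hf : SupLe f C) (h : SupLe (g - f) C) :
    SupLe g C := sub_add_cancel g f ▸ h.add hf

theorem exists_pow_ge (C : ℝ) : ∃ e : ℕ, C ≤ (p : ℝ) ^ (e : ℤ) := by
  obtain ⟨e, he⟩ := pow_unbounded_of_one_lt C (one_lt_cast (p := p))
  exact ⟨e, by rw [zpow_natCast]; exact he.le⟩

theorem Near.mono {κ : Weights p} {a b k : ℕ} (h : Near κ b k) (hab : a ≤ b) : Near κ a k :=
  ⟨h.1, h.2.trans (pow_neg_mono hab)⟩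

/-- Two weights near the same point. -/
theorem Near.dvd {κ : Weights p} {a k k' : ℕ} (h : Near κ a k) (h' : Near κ a k') :
    (((p - 1) * p ^ a : ℕ) : ℤ) ∣ (k : ℤ) - (k' : ℤ) := by
  have h1 : (((p - 1 : ℕ)) : ℤ) ∣ (k : ℤ) - (k' : ℤ) := by
    rw [← ZMod.intCast_zmod_eq_zero_iff_dvd]
    push_cast
    rw [h.1, h'.1, sub_self]
  have h2 : ((p ^ a : ℕ) : ℤ) ∣ (k : ℤ) - (k' : ℤ) := by
    rw [Nat.cast_pow, ← PadicInt.norm_int_le_pow_iff_dvd]
    push_cast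
    rw [← sub_sub_sub_cancel_right (k : ℤ_[p]) (k' : ℤ_[p]) κ.2, sub_eq_add_neg]
    exact (PadicInt.nonarchimedean _ _).trans (max_le h.2 (by rw [norm_neg]; exact h'.2))
  push_cast at h1 h2 ⊢
  refine IsCoprime.mul_dvd ?_ h1 h2
  have hp : p.Prime := Fact.out
  refine IsCoprime.pow_right ?_
  have hcop : Nat.Coprime (p - 1) p := (hp.coprime_iff_not_dvd.2 fun hd => by
    have h2 := hp.two_le
    have := Nat.le_of_dvd (show 0 < p - 1 by omega) hd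
    omega).symm
  exact Nat.isCoprime_iff_coprime.2 hcop

/-- A weight congruent to one near `κ` is near it. -/
theorem Near.of_dvd {κ : Weights p} {a k k' : ℕ} (h : Near κ a k)
    (hd : (((p - 1) * p ^ a : ℕ) : ℤ) ∣ (k' : ℤ) - (k : ℤ)) : Near κ a k' := by
  obtain ⟨t, ht⟩ := hd
  refine ⟨?_, ?_⟩
  · rw [← h.1]
    have e := congrArg (Int.cast : ℤ → ZMod (p - 1)) ht
    push_cast [ZMod.natCast_self] at e
    rw [zero_mul, zero_mul, sub_eq_zero] at e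
    exact e
  · have e : (k' : ℤ_[p]) - (k : ℤ_[p]) = ((p - 1 : ℕ) : ℤ_[p]) * (p : ℤ_[p]) ^ a * (t : ℤ_[p]) := by
      have e := congrArg (Int.cast : ℤ → ℤ_[p]) ht
      push_cast at e
      exact e
    rw [← sub_add_sub_cancel (k' : ℤ_[p]) (k : ℤ_[p]) κ.2]
    refine (PadicInt.nonarchimedean _ _).trans (max_le ?_ h.2)
    rw [e, norm_mul, norm_mul, PadicInt.norm_p_pow]
    exact (mul_le_of_le_one_right (by positivity) (PadicInt.norm_le_one _)).trans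
      (mul_le_of_le_one_left (by positivity) (PadicInt.norm_le_one _))

/-- **Theorem 1, in general scale.** -/
theorem weight_congr_scaled (h5 : 5 ≤ p) {k k' a : ℕ} {S S' : PowerSeries ℚ}
    (hS : IsRatForm k S) (hS' : IsRatForm k' S') {n₀ : ℕ} (hn₀ : coeff n₀ S ≠ 0)
    (hb : SupLe (toQp p S) ‖((coeff n₀ S : ℚ) : ℚ_[p])‖)
    (hcong : SupLe (toQp p S - toQp p S')
      (‖((coeff n₀ S : ℚ) : ℚ_[p])‖ * (p : ℝ) ^ (-((a + 1 : ℕ) : ℤ)))) :
    (((p - 1) * p ^ a : ℕ) : ℤ) ∣ (k : ℤ) - (k' : ℤ) := by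
  obtain ⟨x, hx⟩ : ∃ x, x = ((coeff n₀ S : ℚ) : ℚ_[p]) := ⟨_, rfl⟩
  have hx0 : x ≠ 0 := hx ▸ Rat.cast_ne_zero.2 hn₀
  rw [← hx] at hb hcong
  have e : ∀ T : PowerSeries ℚ, toQp p ((coeff n₀ S)⁻¹ • T) = PowerSeries.C x⁻¹ * toQp p T :=
    fun T => PowerSeries.ext fun n => by simp [hx]
  refine weight_congr_of_norm h5 (m := a + 1) (by omega) (hS.smul (coeff n₀ S)⁻¹)
    (hS'.smul (coeff n₀ S)⁻¹) ?_ (n₀ := n₀) ?_ ?_
  · have h := hb.C_mul x⁻¹
    rwa [norm_inv, inv_mul_cancel₀ (norm_ne_zero_iff.2 hx0), ← e] at h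
  · rw [PowerSeries.coeff_smul, smul_eq_mul, inv_mul_cancel₀ hn₀, Rat.cast_one, norm_one]
  · have h := hcong.C_mul x⁻¹
    rwa [norm_inv, inv_mul_cancel_left₀ (norm_ne_zero_iff.2 hx0), mul_sub, ← e, ← e] at h

/-- A bounded series that is not zero has a largest coefficient. -/
theorem exists_max {f : PowerSeries ℚ_[p]} {C : ℝ} (hb : SupLe f C) (hf : f ≠ 0) :
    ∃ n₀, coeff n₀ f ≠ 0 ∧ SupLe f ‖coeff n₀ f‖ := by
  obtain ⟨N, hN⟩ := exists_pow_ge (p := p) C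
  have hex : ∃ j : ℕ, ∃ n, ‖coeff n f‖ = (p : ℝ) ^ ((N : ℤ) - j) := by
    obtain ⟨n, hn⟩ : ∃ n, coeff n f ≠ 0 := by
      by_contra h
      push Not at h
      exact hf (PowerSeries.ext fun n => by simpa using h n)
    have hv := Padic.norm_eq_zpow_neg_valuation hn
    have hle : -(coeff n f).valuation ≤ (N : ℤ) :=
      (zpow_le_zpow_iff_right₀ one_lt_cast).1 (hv ▸ (hb n).trans hN)
    exact ⟨((N : ℤ) + (coeff n f).valuation).toNat, n, by
      rw [hv, Int.toNat_of_nonneg (by omega)]; ring_nf⟩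
  classical
  obtain ⟨n₀, hn₀⟩ := Nat.find_spec hex
  refine ⟨n₀, fun e => ?_, fun n => ?_⟩
  · rw [e, norm_zero] at hn₀
    exact (zpow_pos' (p := p) _).ne hn₀
  · rcases eq_or_ne (coeff n f) 0 with e | e
    · rw [e, norm_zero]
      exact norm_nonneg _
    have hv := Padic.norm_eq_zpow_neg_valuation e
    have hle : -(coeff n f).valuation ≤ (N : ℤ) :=
      (zpow_le_zpow_iff_right₀ one_lt_cast).1 (hv ▸ (hb n).trans hN)
    have h := Nat.find_min' hex (m := ((N : ℤ) + (coeff n f).valuation).toNat) ⟨n, by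
      rw [hv, Int.toNat_of_nonneg (by omega)]; ring_nf⟩
    rw [hn₀, hv]
    exact zpow_le_zpow_right₀ one_lt_cast.le (by omega)

theorem IsPadicForm.exists_supLe {f : PowerSeries ℚ_[p]} {κ : Weights p} (h : IsPadicForm f κ) :
    ∃ C : ℝ, SupLe f C := by
  obtain ⟨k, S, hS, -, hd⟩ := h 0
  obtain ⟨C, hC⟩ := hS.exists_supLe (p := p)
  exact ⟨max C _, (hC.mono (le_max_left _ _)).of_near (hd.symm.mono (le_max_right _ _))⟩

/-- Near approximations of a series that is not zero have congruent weights. -/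
theorem congr_of_approx (h5 : 5 ≤ p) {f : PowerSeries ℚ_[p]} {n₀ : ℕ} (hn₀ : coeff n₀ f ≠ 0)
    (hb : SupLe f ‖coeff n₀ f‖) {a k k' : ℕ} {S S' : PowerSeries ℚ} (hS : IsRatForm k S)
    (hS' : IsRatForm k' S') (hd : SupLe (toQp p S - f) (‖coeff n₀ f‖ * (p : ℝ) ^ (-((a + 1 : ℕ) : ℤ))))
    (hd' : SupLe (toQp p S' - f) (‖coeff n₀ f‖ * (p : ℝ) ^ (-((a + 1 : ℕ) : ℤ)))) :
    (((p - 1) * p ^ a : ℕ) : ℤ) ∣ (k : ℤ) - (k' : ℤ) := by
  have hlt : (p : ℝ) ^ (-((a + 1 : ℕ) : ℤ)) < 1 := zpow_lt_one_of_neg₀ one_lt_cast (by omega)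
  have hlt' : ‖coeff n₀ f‖ * (p : ℝ) ^ (-((a + 1 : ℕ) : ℤ)) < ‖coeff n₀ f‖ :=
    mul_lt_of_lt_one_right (norm_pos_iff.2 hn₀) hlt
  have he : ‖((coeff n₀ S : ℚ) : ℚ_[p])‖ = ‖coeff n₀ f‖ := by
    have h1 := (hd n₀).trans_lt hlt'
    rw [map_sub, coeff_toQp] at h1
    rw [← sub_add_cancel ((coeff n₀ S : ℚ) : ℚ_[p]) (coeff n₀ f),
      Padic.add_eq_max_of_ne h1.ne, max_eq_right h1.le]
  refine weight_congr_scaled h5 hS hS' (n₀ := n₀) (fun e => hn₀ ?_) ?_ ?_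
  · rw [e, Rat.cast_zero, norm_zero, eq_comm, norm_eq_zero] at he
    exact he
  · rw [he]
    exact hb.of_near (hd.mono hlt'.le)
  · rw [he]
    exact hd.trans hd'.symm

/-- **Serre's second theorem**: if forms converge to a series that is not zero, their weights
converge in the weight space and the limit is a `p`-adic form. -/
theorem weights_converge (h5 : 5 ≤ p) {S : ℕ → PowerSeries ℚ} {k : ℕ → ℕ}
    (hS : ∀ i, IsRatForm (k i) (S i)) {f : PowerSeries ℚ_[p]}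
    (hlim : SeriesTendsto (fun i => toQp p (S i)) f) (hf : f ≠ 0) :
    ∃ κ : Weights p, WeightsTo k κ ∧ IsPadicForm f κ := by
  obtain ⟨C, hC⟩ : ∃ C, SupLe f C := by
    obtain ⟨i, hi⟩ := (hlim 1 one_pos).exists
    obtain ⟨C, hC⟩ := (hS i).exists_supLe (p := p)
    exact ⟨max C 1, (hC.mono (le_max_left _ _)).of_near (hi.symm.mono (le_max_right _ _))⟩
  obtain ⟨n₀, hn₀, hb⟩ := exists_max hC hf
  have hev : ∀ a : ℕ, ∀ᶠ i in atTop, SupLe (toQp p (S i) - f)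
      (‖coeff n₀ f‖ * (p : ℝ) ^ (-((a + 1 : ℕ) : ℤ))) := fun a =>
    hlim _ (mul_pos (norm_pos_iff.2 hn₀) (zpow_pos' _))
  choose N hN using fun a => eventually_atTop.1 (hev a)
  have hdvd : ∀ a i j, N a ≤ i → N a ≤ j →
      (((p - 1) * p ^ a : ℕ) : ℤ) ∣ (k i : ℤ) - (k j : ℤ) := fun a i j hi hj =>
    congr_of_approx h5 hn₀ hb (hS i) (hS j) (hN a i hi) (hN a j hj)
  have hnear : ∀ a i j, N a ≤ i → N a ≤ j →
      Near ((k j : ZMod (p - 1)), (k j : ℤ_[p])) a (k i) := fun a i j hi hj =>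
    Near.of_dvd ⟨rfl, by rw [sub_self, norm_zero]; positivity⟩ (hdvd a i j hi hj)
  have hc : CauchySeq fun i => (k i : ℤ_[p]) := by
    refine Metric.cauchySeq_iff'.2 fun ε hε => ?_
    obtain ⟨a, ha⟩ := exists_pow_neg_lt (p := p) hε
    exact ⟨N a, fun i hi => by rw [dist_eq_norm]; exact (hnear a i _ hi le_rfl).2.trans_lt ha⟩
  obtain ⟨y, hy⟩ := cauchySeq_tendsto_of_complete hc
  obtain ⟨κ, hκ⟩ : ∃ κ : Weights p, κ = ((k (N 0) : ZMod (p - 1)), y) := ⟨_, rfl⟩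
  have hW : WeightsTo k κ := fun a => eventually_atTop.2 ⟨max (N a) (N 0), fun i hi => by
    rw [hκ]
    refine ⟨(hnear 0 i _ (le_of_max_le_right hi) le_rfl).1, ?_⟩
    refine le_of_tendsto ((hy.const_sub (k i : ℤ_[p])).norm) (eventually_atTop.2 ⟨N a, fun j hj => ?_⟩)
    exact (hnear a i j (le_of_max_le_left hi) hj).2⟩
  refine ⟨κ, hW, fun a => ?_⟩
  obtain ⟨i, hi⟩ := ((hW a).and (hlim _ (zpow_pos' (p := p) (-(a : ℤ))))).exists
  exact ⟨k i, S i, hS i, hi.1, hi.2⟩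

/-- **The weight of a `p`-adic form is well defined.** -/
theorem IsPadicForm.weight_unique (h5 : 5 ≤ p) {f : PowerSeries ℚ_[p]} {κ κ' : Weights p}
    (h : IsPadicForm f κ) (h' : IsPadicForm f κ') (hf : f ≠ 0) : κ = κ' := by
  obtain ⟨C, hC⟩ := h.exists_supLe
  obtain ⟨n₀, hn₀, hb⟩ := exists_max hC hf
  have key : ∀ a : ℕ, ∃ k : ℕ, Near κ a k ∧ Near κ' a k := fun a => by
    obtain ⟨b, hb'⟩ := exists_pow_neg_lt (p := p)
      (mul_pos (norm_pos_iff.2 hn₀) (zpow_pos' (p := p) (-((a + 1 : ℕ) : ℤ))))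
    obtain ⟨k, S, hS, hk, hd⟩ := h (max a b)
    obtain ⟨k', S', hS', hk', hd'⟩ := h' (max a b)
    have hle := (pow_neg_mono (p := p) (le_max_right a b)).trans hb'.le
    refine ⟨k', (hk.mono (le_max_left _ _)).of_dvd ?_, hk'.mono (le_max_left _ _)⟩
    rw [← dvd_neg, neg_sub]
    exact congr_of_approx h5 hn₀ hb hS hS' (hd.mono hle) (hd'.mono hle)
  refine Prod.ext ?_ ?_
  · obtain ⟨k, h1, h2⟩ := key 0
    exact h1.1.symm.trans h2.1
  · refine sub_eq_zero.1 (Subtype.ext (norm_eq_zero_of_le (x := ((κ.2 - κ'.2 : ℤ_[p]) : ℚ_[p]))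
      fun a => ?_))
    obtain ⟨k, h1, h2⟩ := key a
    rw [← PadicInt.norm_def, ← sub_sub_sub_cancel_left κ'.2 κ.2 (k : ℤ_[p]), sub_eq_add_neg]
    exact (PadicInt.nonarchimedean _ _).trans (max_le h2.2 (by rw [norm_neg]; exact h1.2))

/-- A limit of `p`-adic forms whose weights tend to `κ`. -/
theorem IsPadicForm.of_approx {f : PowerSeries ℚ_[p]} {κ : Weights p}
    (h : ∀ a : ℕ, ∃ (g : PowerSeries ℚ_[p]) (κ' : Weights p), IsPadicForm g κ' ∧ κ'.1 = κ.1 ∧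
      ‖κ'.2 - κ.2‖ ≤ (p : ℝ) ^ (-(a : ℤ)) ∧ SupLe (g - f) ((p : ℝ) ^ (-(a : ℤ)))) :
    IsPadicForm f κ := fun a => by
  obtain ⟨g, κ', hg, h1, h2, hd⟩ := h a
  obtain ⟨k, S, hS, hk, hd'⟩ := hg a
  refine ⟨k, S, hS, ⟨hk.1.trans h1, ?_⟩, hd'.trans hd⟩
  rw [← sub_add_sub_cancel (k : ℤ_[p]) κ'.2 κ.2]
  exact (PadicInt.nonarchimedean _ _).trans (max_le hk.2 h2)

/-- The weight of an integer. -/
def natWeight (p : ℕ) [Fact p.Prime] (k : ℕ) : Weights p := ((k : ZMod (p - 1)), (k : ℤ_[p]))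

theorem near_natWeight (k a : ℕ) : Near (natWeight p k) a k :=
  ⟨rfl, by simp [natWeight]⟩

/-- A rational form is a `p`-adic form. -/
theorem IsRatForm.isPadicForm {k : ℕ} {S : PowerSeries ℚ} (h : IsRatForm k S) :
    IsPadicForm (toQp p S) (natWeight p k) := fun a =>
  ⟨k, S, h, near_natWeight k a, fun n => by rw [sub_self, map_zero, norm_zero]; positivity⟩

/-! ### The constant term -/

/-- **The constant of a form off weight `0`.** -/
theorem constant_le (h5 : 5 ≤ p) {k m : ℕ} {S : PowerSeries ℚ} (hS : IsRatForm k S)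
    (hk : ¬(p - 1) * p ^ m ∣ k) {C : ℝ} (hC0 : 0 ≤ C)
    (hC : ∀ n ≠ 0, ‖((coeff n S : ℚ) : ℚ_[p])‖ ≤ C) :
    ‖((coeff 0 S : ℚ) : ℚ_[p])‖ ≤ (p : ℝ) ^ (m : ℤ) * C := by
  by_contra hlt
  push Not at hlt
  have h1 : 1 ≤ (p : ℝ) ^ (m : ℤ) := one_le_zpow₀ one_lt_cast.le (by omega)
  have hCx : C ≤ ‖((coeff 0 S : ℚ) : ℚ_[p])‖ :=
    ((le_mul_of_one_le_left hC0 h1).trans hlt.le)
  have h00 : coeff 0 S ≠ 0 := fun e => by
    rw [e, Rat.cast_zero, norm_zero] at hlt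
    nlinarith
  have hne : ‖((coeff 0 S : ℚ) : ℚ_[p])‖ ≠ 0 := norm_ne_zero_iff.2 (Rat.cast_ne_zero.2 h00)
  refine hk ?_
  have h := weight_congr_scaled h5 (a := m) hS (isRatForm_C (coeff 0 S)) h00 (fun n => ?_)
    fun n => ?_
  · rw [Nat.cast_zero, sub_zero] at h
    exact Int.natCast_dvd_natCast.1 h
  · rcases eq_or_ne n 0 with rfl | hn
    · rw [coeff_toQp]
    · rw [coeff_toQp]
      exact (hC n hn).trans hCx
  · rcases eq_or_ne n 0 with rfl | hn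
    · rw [map_sub, coeff_toQp, coeff_toQp, coeff_zero_C, sub_self, norm_zero]
      positivity
    · rw [map_sub, coeff_toQp, coeff_toQp, coeff_C, if_neg hn, Rat.cast_zero, sub_zero]
      obtain ⟨x, hx⟩ : ∃ x, x = ((coeff 0 S : ℚ) : ℚ_[p]) := ⟨_, rfl⟩
      rw [← hx] at hlt hne ⊢
      have hx0 : x ≠ 0 := norm_ne_zero_iff.1 hne
      have hp0 : (p : ℝ) ≠ 0 := (zero_lt_one.trans one_lt_cast).ne'
      rw [Padic.norm_eq_zpow_neg_valuation hx0] at hlt ⊢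
      rw [← zpow_add₀ hp0]
      have hCb : C < (p : ℝ) ^ (-x.valuation - m) := by
        rw [zpow_sub₀ hp0, lt_div_iff₀ (zpow_pos' _), mul_comm]
        exact hlt
      refine ((Padic.norm_lt_pow_iff_norm_le_pow_sub_one _ _).1 ((hC n hn).trans_lt hCb)).trans_eq ?_
      congr 1
      push_cast
      ring

end FA.PadicForms

end
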