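import Fermat.Agent.PadicForms.Ring

/-!
# The operators `U` and `V` on `p`-adic forms

`U` takes `∑ a n qⁿ` to `∑ a (p n) qⁿ` and `V` to `∑ a n q^(p n)`. In large weight `T_p` is close
to `U`, and in each weight `k` one has `p^(k-1) V = T_p - U`; so both keep `p`-adic forms of each
weight.
-/

set_option autoImplicit false
set_option linter.unusedSectionVars false

noncomputable section

open UpperHalfPlane hiding I
open PowerSeries
open CongruenceSubgroup
open scoped MatrixGroups ModularForm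

namespace FA.PadicForms

open FA.Tau

variable (p : ℕ) [Fact p.Prime]

/-- `∑ a (p n) qⁿ`. -/
def uSer {R : Type*} [CommRing R] (f : PowerSeries R) : PowerSeries R :=
  PowerSeries.mk fun n => coeff (p * n) f

/-- `∑ a n q^(p n)`. -/
def vSer {R : Type*} [CommRing R] (f : PowerSeries R) : PowerSeries R :=
  PowerSeries.mk fun n => if p ∣ n then coeff (n / p) f else 0

variable {p}

theorem coeff_uSer {R : Type*} [CommRing R] (f : PowerSeries R) (n : ℕ) :
    coeff n (uSer p f) = coeff (p * n) f := coeff_mk _ _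

theorem coeff_vSer {R : Type*} [CommRing R] (f : PowerSeries R) (n : ℕ) :
    coeff n (vSer p f) = if p ∣ n then coeff (n / p) f else 0 := coeff_mk _ _

theorem SupLe.uSer {f : PowerSeries ℚ_[p]} {C : ℝ} (h : SupLe f C) :
    SupLe (FA.PadicForms.uSer p f) C := fun n => by
  rw [coeff_uSer]
  exact h _

theorem SupLe.vSer {f : PowerSeries ℚ_[p]} {C : ℝ} (h : SupLe f C) :
    SupLe (FA.PadicForms.vSer p f) C := fun n => by
  rw [coeff_vSer]
  split_ifs
  · exact h _
  · rw [norm_zero]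
    exact h.nonneg

theorem uSer_sub {R : Type*} [CommRing R] (f g : PowerSeries R) :
    uSer p (f - g) = uSer p f - uSer p g := PowerSeries.ext fun n => by
  simp only [map_sub, coeff_uSer]

theorem vSer_sub {R : Type*} [CommRing R] (f g : PowerSeries R) :
    vSer p (f - g) = vSer p f - vSer p g := PowerSeries.ext fun n => by
  simp only [map_sub, coeff_vSer]
  split_ifs <;> simp

/-- **The Hecke operator `T_p`** on rational forms of level one: `U + p ^ (k - 1) V`. -/
theorem IsRatForm.hecke {k : ℕ} {S : PowerSeries ℚ} (h : IsRatForm k S) (hk : 1 ≤ k) :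
    IsRatForm k (uSer p S + C ((p : ℚ) ^ (k - 1)) * vSer p S) := by
  obtain ⟨G, hG⟩ := h
  have hp : p.Prime := Fact.out
  set G₁ : ModularForm (Gamma0 1) (k : ℤ) := ModularForm.mcast rfl G FA.EisCong.gamma0_one_coe
  set g := ModularForm.heckeTLin (k : ℤ) hp hp.not_dvd_one G₁ with hg
  refine ⟨ModularForm.mcast rfl g FA.EisCong.gamma0_one_coe.symm, ?_⟩
  have hq : ∀ m, ModularFormClass.qCoeff G₁ m = ((coeff m S : ℚ) : ℂ) := fun m => by
    show (qExpansion 1 ⇑G).coeff m = _
    rw [hG, PowerSeries.coeff_map]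
    rfl
  refine PowerSeries.ext fun m => ?_
  show ModularFormClass.qCoeff (ModularForm.heckeT (k : ℤ) p ⇑G₁) m = _
  rw [ModularFormClass.qCoeff_heckeT G₁ (one_mem_strictPeriods_Gamma0 1) hp.ne_zero,
    ModularForm.coeffHeckeT_apply, hq, hq, PowerSeries.coeff_map, map_add, coeff_C_mul, coeff_uSer,
    coeff_vSer, show ((p : ℂ) ^ ((k : ℤ) - 1)) = (p : ℂ) ^ (k - 1) by
      rw [← zpow_natCast, Nat.cast_sub hk, Nat.cast_one], mul_comm m p]
  split_ifs <;> simp

theorem toQp_uSer (S : PowerSeries ℚ) : toQp p (uSer p S) = uSer p (toQp p S) :=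
  PowerSeries.ext fun n => by simp [coeff_uSer]

theorem toQp_vSer (S : PowerSeries ℚ) : toQp p (vSer p S) = vSer p (toQp p S) :=
  PowerSeries.ext fun n => by
    simp only [coeff_toQp, coeff_vSer]
    split_ifs <;> simp

variable {f : PowerSeries ℚ_[p]} {κ : Weights p}

/-- **`U` keeps the weight.** -/
theorem IsPadicForm.uSer (h5 : 5 ≤ p) (h : IsPadicForm f κ) :
    IsPadicForm (FA.PadicForms.uSer p f) κ := fun a => by
  obtain ⟨B, hB⟩ := h.exists_supLe
  obtain ⟨e, he⟩ := exists_pow_ge (p := p) (max B 1)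
  obtain ⟨k, S, hk, hS, hn, hd⟩ := h.approx_large h5 a (a + e + 1)
  refine ⟨k, _, hS.hecke (p := p) (by omega), hn, ?_⟩
  have hSC : SupLe (toQp p S) ((p : ℝ) ^ (e : ℤ)) :=
    (hB.mono ((le_max_left _ _).trans he)).of_near
      (hd.mono ((zpow_le_one_of_nonpos₀ one_lt_cast.le (by omega)).trans
        ((le_max_right _ _).trans he)))
  have hC : toQp p (C ((p : ℚ) ^ (k - 1))) = C ((p : ℚ_[p]) ^ (k - 1)) := by simp [toQp]
  rw [map_add, map_mul, hC, toQp_uSer, toQp_vSer, add_sub_right_comm, ← uSer_sub]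
  refine hd.uSer.add ((hSC.vSer.C_mul _).mono ?_)
  rw [Padic.norm_p_pow, ← zpow_add₀ (zero_lt_one.trans (one_lt_cast (p := p))).ne']
  exact zpow_le_zpow_right₀ one_lt_cast.le (by omega)

/-- **`V` keeps the weight.** -/
theorem IsPadicForm.vSer (h5 : 5 ≤ p) (h : IsPadicForm f κ) :
    IsPadicForm (FA.PadicForms.vSer p f) κ := IsPadicForm.of_approx fun a => by
  obtain ⟨k, S, hk, hS, hn, hd⟩ := h.approx_large h5 a 1
  refine ⟨FA.PadicForms.vSer p (toQp p S), natWeight p k, ?_, hn.1, hn.2,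
    vSer_sub (p := p) (toQp p S) f ▸ hd.vSer⟩
  have e : FA.PadicForms.vSer p (toQp p S) = C ((p : ℚ_[p]) ^ (k - 1))⁻¹ *
      (toQp p (FA.PadicForms.uSer p S + C ((p : ℚ) ^ (k - 1)) * FA.PadicForms.vSer p S) -
        FA.PadicForms.uSer p (toQp p S)) := by
    have hC : toQp p (C ((p : ℚ) ^ (k - 1))) = C ((p : ℚ_[p]) ^ (k - 1)) := by simp [toQp]
    rw [map_add, map_mul, hC, toQp_uSer, toQp_vSer, add_sub_cancel_left, ← mul_assoc, ← map_mul,
      inv_mul_cancel₀ (pow_ne_zero _ (Nat.cast_ne_zero.2 (Fact.out : p.Prime).ne_zero)), map_one,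
      one_mul]
  rw [e]
  exact (((hS.hecke (p := p) hk).isPadicForm).sub h5 (hS.isPadicForm.uSer h5)).C_mul _

end FA.PadicForms

end
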