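import Fermat.Agent.PadicForms.Limits

/-!
# The ring of `p`-adic forms and their constant terms

Forms are padded with the powers of `E_(p-1)` that are congruent to `1`; so `p`-adic forms of one
weight form a space, weights add under products, and off weight `0` the higher coefficients
determine the constant, also in the limit (Serre).
-/

set_option autoImplicit false
set_option linter.unusedSectionVars false

noncomputable section

open PowerSeries Filter Topology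

namespace FA.PadicForms

variable {p : ℕ} [Fact p.Prime]

/-- A form congruent to `1` modulo `p ^ (a + 1)` of weight `(p - 1) p ^ a t`. -/
theorem exists_pad (h5 : 5 ≤ p) (a t : ℕ) : ∃ W : PowerSeries ℚ,
    IsRatForm ((p - 1) * (p ^ a * t)) W ∧
      SupLe (toQp p W - 1) ((p : ℝ) ^ (-((a + 1 : ℕ) : ℤ))) := by
  obtain ⟨B, E, W, hB, -, hE⟩ := FA.TotallyRealKummer.exists_padding_form (p := p) h5 a t
  refine ⟨(B : ℚ)⁻¹ • (C B + C ((p : ℤ) ^ (a + 1)) * W).map (Int.castRingHom ℚ),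
    (IsRatForm.of_int hE).smul _, fun n => ?_⟩
  have hB0 : (B : ℚ_[p]) ≠ 0 := Int.cast_ne_zero.2 fun e => hB (e ▸ dvd_zero _)
  have hBn : ‖(B : ℚ_[p])‖ = 1 := le_antisymm (Padic.norm_int_le_one B)
    (not_lt.1 fun h => hB ((Padic.norm_intCast_lt_one_iff (p := p)).1 h))
  have e : coeff n (toQp p ((B : ℚ)⁻¹ • (C B + C ((p : ℤ) ^ (a + 1)) * W).map (Int.castRingHom ℚ))
      - 1) = (p : ℚ_[p]) ^ (a + 1) * ((B : ℚ_[p])⁻¹ * ((coeff n W : ℤ) : ℚ_[p])) := by
    rw [map_sub, coeff_toQp, PowerSeries.coeff_smul, coeff_map, map_add, coeff_C_mul, coeff_C,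
      coeff_one, eq_intCast, smul_eq_mul]
    split_ifs with hn
    · push_cast
      field_simp
      ring
    · push_cast
      ring
  rw [e, norm_mul, Padic.norm_p_pow, norm_mul, norm_inv, hBn, inv_one, one_mul]
  exact mul_le_of_le_one_right (zpow_pos' _).le (Padic.norm_int_le_one _)

/-- Raising the weight. -/
theorem IsRatForm.raise (h5 : 5 ≤ p) {k k' b : ℕ} {S : PowerSeries ℚ} {C : ℝ}
    (h : IsRatForm k S) (hC : SupLe (toQp p S) C) (hle : k ≤ k')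
    (hd : (((p - 1) * p ^ b : ℕ) : ℤ) ∣ (k : ℤ) - (k' : ℤ)) :
    ∃ S' : PowerSeries ℚ, IsRatForm k' S' ∧
      SupLe (toQp p S' - toQp p S) (C * (p : ℝ) ^ (-((b + 1 : ℕ) : ℤ))) := by
  rw [← dvd_neg, neg_sub, ← Nat.cast_sub hle] at hd
  obtain ⟨t, ht⟩ := Int.natCast_dvd_natCast.1 hd
  obtain ⟨W, hW, hW'⟩ := exists_pad (p := p) h5 b t
  refine ⟨S * W, ?_, ?_⟩
  · have hm := h.mul hW
    rwa [show k + (p - 1) * (p ^ b * t) = k' by rw [← mul_assoc, ← ht]; omega] at hm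
  · rw [map_mul, ← mul_sub_one]
    exact hC.mul hW'

variable {f g : PowerSeries ℚ_[p]} {κ κ' : Weights p}

/-- Approximations of arbitrarily large weight. -/
theorem IsPadicForm.approx_large (h5 : 5 ≤ p) (h : IsPadicForm f κ) (a N : ℕ) :
    ∃ (k : ℕ) (S : PowerSeries ℚ), N ≤ k ∧ IsRatForm k S ∧ Near κ a k ∧
      SupLe (toQp p S - f) ((p : ℝ) ^ (-(a : ℤ))) := by
  obtain ⟨C, hC⟩ := h.exists_supLe
  obtain ⟨e, he⟩ := exists_pow_ge (p := p) (max C 1)
  obtain ⟨k, S, hS, hk, hd⟩ := h a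
  have hSC : SupLe (toQp p S) ((p : ℝ) ^ (e : ℤ)) :=
    (hC.mono ((le_max_left _ _).trans he)).of_near
      (hd.mono ((zpow_le_one_of_nonpos₀ one_lt_cast.le (by omega)).trans
        ((le_max_right _ _).trans he)))
  have hN : N ≤ (p - 1) * p ^ (a + e) * N := Nat.le_mul_of_pos_left _
    (Nat.mul_pos (by omega) (pow_pos (Fact.out : p.Prime).pos _))
  obtain ⟨S', hS', hd'⟩ := hS.raise h5 hSC (b := a + e)
    (k' := k + (p - 1) * p ^ (a + e) * N) (Nat.le_add_right _ _)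
    ⟨-(N : ℤ), by push_cast; ring⟩
  refine ⟨_, S', hN.trans (Nat.le_add_left _ _), hS', hk.of_dvd ?_,
    SupLe.trans (hd'.mono ?_) hd⟩
  · refine (Int.natCast_dvd_natCast.2 (Nat.mul_dvd_mul_left _ (pow_dvd_pow p
      (Nat.le_add_right a e)))).trans ⟨(N : ℤ), ?_⟩
    push_cast
    ring
  · rw [← zpow_add₀ (zero_lt_one.trans (one_lt_cast (p := p))).ne']
    exact zpow_le_zpow_right₀ one_lt_cast.le (by push_cast; omega)

/-- Two forms of one weight are approximated in one weight. -/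
theorem IsPadicForm.approx_pair (h5 : 5 ≤ p) (h : IsPadicForm f κ) (h' : IsPadicForm g κ)
    (a : ℕ) : ∃ (k : ℕ) (S T : PowerSeries ℚ), IsRatForm k S ∧ IsRatForm k T ∧ Near κ a k ∧
      SupLe (toQp p S - f) ((p : ℝ) ^ (-(a : ℤ))) ∧
      SupLe (toQp p T - g) ((p : ℝ) ^ (-(a : ℤ))) := by
  obtain ⟨C, hC⟩ := h.exists_supLe
  obtain ⟨e, he⟩ := exists_pow_ge (p := p) (max C 1)
  obtain ⟨k, S, hS, hk, hd⟩ := h (a + e)
  obtain ⟨k', T, hle, hT, hk', hdT⟩ := h'.approx_large h5 (a + e) k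
  have hSC : SupLe (toQp p S) ((p : ℝ) ^ (e : ℤ)) :=
    (hC.mono ((le_max_left _ _).trans he)).of_near
      (hd.mono ((zpow_le_one_of_nonpos₀ one_lt_cast.le (by omega)).trans
        ((le_max_right _ _).trans he)))
  obtain ⟨S', hS', hd'⟩ := hS.raise h5 hSC hle (hk.dvd hk')
  refine ⟨k', S', T, hS', hT, hk'.mono (Nat.le_add_right _ _),
    SupLe.trans (hd'.mono ?_) (hd.mono (pow_neg_mono (Nat.le_add_right _ _))),
    hdT.mono (pow_neg_mono (Nat.le_add_right _ _))⟩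
  rw [← zpow_add₀ (zero_lt_one.trans (one_lt_cast (p := p))).ne']
  exact zpow_le_zpow_right₀ one_lt_cast.le (by push_cast; omega)

/-- **`p`-adic forms of one weight form a group.** -/
theorem IsPadicForm.add (h5 : 5 ≤ p) (h : IsPadicForm f κ) (h' : IsPadicForm g κ) :
    IsPadicForm (f + g) κ := fun a => by
  obtain ⟨k, S, T, hS, hT, hk, hd, hd'⟩ := h.approx_pair h5 h' a
  refine ⟨k, S + T, hS.add hT, hk, ?_⟩
  rw [map_add, add_sub_add_comm]
  exact hd.add hd'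

theorem IsPadicForm.C_mul (h : IsPadicForm f κ) (c : ℚ_[p]) :
    IsPadicForm (C c * f) κ := fun a => by
  obtain ⟨B, hB⟩ := h.exists_supLe
  obtain ⟨e, he⟩ := exists_pow_ge (p := p) (max (max B 1) ‖c‖)
  obtain ⟨q, hq⟩ := Padic.rat_dense p c (zpow_pos' (p := p) (-((a + e : ℕ) : ℤ)))
  obtain ⟨k, S, hS, hk, hd⟩ := h (a + e)
  refine ⟨k, q • S, hS.smul q, hk.mono (Nat.le_add_right _ _), ?_⟩
  have e1 : toQp p (q • S) - C c * f =
      C ((q : ℚ_[p]) - c) * toQp p S + C c * (toQp p S - f) :=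
    PowerSeries.ext fun n => by
      simp only [map_sub, map_add, sub_mul, mul_sub, coeff_C_mul, coeff_toQp,
        PowerSeries.coeff_smul, smul_eq_mul]
      push_cast
      ring
  have hp0 := (zero_lt_one.trans (one_lt_cast (p := p))).ne'
  have hle : (p : ℝ) ^ (e : ℤ) * (p : ℝ) ^ (-((a + e : ℕ) : ℤ)) = (p : ℝ) ^ (-(a : ℤ)) := by
    rw [← zpow_add₀ hp0]
    push_cast
    ring_nf
  have hSC : SupLe (toQp p S) ((p : ℝ) ^ (e : ℤ)) :=
    (hB.mono (((le_max_left _ _).trans (le_max_left _ _)).trans he)).of_near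
      (hd.mono ((zpow_le_one_of_nonpos₀ one_lt_cast.le (by omega)).trans
        (((le_max_right _ _).trans (le_max_left _ _)).trans he)))
  rw [e1]
  refine ((hSC.C_mul _).mono ?_).add ((hd.C_mul c).mono ?_)
  · rw [← hle, mul_comm]
    exact mul_le_mul_of_nonneg_left (norm_sub_rev c (q : ℚ_[p]) ▸ hq.le) (zpow_pos' _).le
  · rw [← hle]
    exact mul_le_mul_of_nonneg_right ((le_max_right _ _).trans he) (zpow_pos' _).le

theorem IsPadicForm.sub (h5 : 5 ≤ p) (h : IsPadicForm f κ) (h' : IsPadicForm g κ) :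
    IsPadicForm (f - g) κ := by
  have := h.add h5 (h'.C_mul (-1))
  rwa [map_neg, map_one, neg_one_mul, ← sub_eq_add_neg] at this

theorem Near.add {a k k' : ℕ} (h : Near κ a k) (h' : Near κ' a k') :
    Near (κ + κ') a (k + k') := by
  refine ⟨by rw [Nat.cast_add, h.1, h'.1]; rfl, ?_⟩
  rw [Nat.cast_add, Prod.snd_add, add_sub_add_comm]
  exact (PadicInt.nonarchimedean _ _).trans (max_le h.2 h'.2)

/-- **Products**: weights add. -/
theorem IsPadicForm.mul (h : IsPadicForm f κ) (h' : IsPadicForm g κ') :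
    IsPadicForm (f * g) (κ + κ') := fun a => by
  obtain ⟨B, hB⟩ := h.exists_supLe
  obtain ⟨B', hB'⟩ := h'.exists_supLe
  obtain ⟨e, he⟩ := exists_pow_ge (p := p) (max (max B B') 1)
  obtain ⟨k, S, hS, hk, hd⟩ := h (a + e)
  obtain ⟨k', T, hT, hk', hd'⟩ := h' (a + e)
  refine ⟨k + k', S * T, hS.mul hT,
    (hk.mono (Nat.le_add_right _ _)).add (hk'.mono (Nat.le_add_right _ _)), ?_⟩
  have hle : (p : ℝ) ^ (-((a + e : ℕ) : ℤ)) * (p : ℝ) ^ (e : ℤ) = (p : ℝ) ^ (-(a : ℤ)) := by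
    rw [← zpow_add₀ (zero_lt_one.trans (one_lt_cast (p := p))).ne']
    push_cast
    ring_nf
  have hSC : SupLe (toQp p S) ((p : ℝ) ^ (e : ℤ)) :=
    (hB.mono (((le_max_left _ _).trans (le_max_left _ _)).trans he)).of_near
      (hd.mono ((zpow_le_one_of_nonpos₀ one_lt_cast.le (by omega)).trans
        ((le_max_right _ _).trans he)))
  rw [map_mul, show toQp p S * toQp p T - f * g =
    (toQp p T - g) * toQp p S + (toQp p S - f) * g by ring, ← hle]
  exact (hd'.mul hSC).add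
    (hd.mul (hB'.mono (((le_max_right _ _).trans (le_max_left _ _)).trans he)))

/-- Off weight `0` some level separates `κ` from `0`. -/
theorem exists_not_near (hκ : κ ≠ 0) : ∃ m : ℕ, ¬Near κ m 0 := by
  by_contra hall
  push Not at hall
  refine hκ (Prod.ext ?_ (Subtype.ext (norm_eq_zero_of_le (x := ((κ.2 : ℤ_[p]) : ℚ_[p]))
    fun a => ?_)))
  · rw [Prod.fst_zero, ← (hall 0).1, Nat.cast_zero]
  · rw [← PadicInt.norm_def]
    simpa using (hall a).2

theorem not_dvd_of_near {m k : ℕ} (hm : ¬Near κ m 0) (hk : Near κ m k) :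
    ¬(p - 1) * p ^ m ∣ k := fun hd => hm (hk.of_dvd (by
  rw [Nat.cast_zero, zero_sub, dvd_neg]
  exact Int.natCast_dvd_natCast.2 hd))

/-- **The constant of a `p`-adic form.** -/
theorem IsPadicForm.constant_le (h5 : 5 ≤ p) (h : IsPadicForm f κ) {m : ℕ} (hm : ¬Near κ m 0)
    {C : ℝ} (hC0 : 0 ≤ C) (hC : ∀ n ≠ 0, ‖coeff n f‖ ≤ C) :
    ‖coeff 0 f‖ ≤ (p : ℝ) ^ (m : ℤ) * C := by
  by_contra hlt
  push Not at hlt
  have hp0 := zpow_pos' (p := p) (m : ℤ)
  obtain ⟨a, ha⟩ := exists_pow_neg_lt (p := p) (ε := ‖coeff 0 f‖ / (p : ℝ) ^ (m : ℤ))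
    (div_pos ((mul_nonneg hp0.le hC0).trans_lt hlt) hp0)
  obtain ⟨k, S, hS, hk, hd⟩ := h (max a m)
  have hda := hd.mono (pow_neg_mono (le_max_left a m))
  have h0 := FA.PadicForms.constant_le (p := p) h5 hS (not_dvd_of_near hm (hk.mono (le_max_right _ _)))
    (hC0.trans (le_max_left C ((p : ℝ) ^ (-(a : ℤ))))) fun n hn => by
      have h1 := hda n
      rw [map_sub, coeff_toQp] at h1
      rw [← sub_add_cancel ((coeff n S : ℚ) : ℚ_[p]) (coeff n f)]
      exact (Padic.nonarchimedean _ _).trans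
        (max_le (h1.trans (le_max_right _ _)) ((hC n hn).trans (le_max_left _ _)))
  have ha' : (p : ℝ) ^ (m : ℤ) * (p : ℝ) ^ (-(a : ℤ)) < ‖coeff 0 f‖ := by
    rwa [lt_div_iff₀ hp0, mul_comm] at ha
  have hlt' : (p : ℝ) ^ (m : ℤ) * max C ((p : ℝ) ^ (-(a : ℤ))) < ‖coeff 0 f‖ := by
    rw [mul_max_of_nonneg _ _ hp0.le]
    exact max_lt hlt ha'
  have h1 := hda 0
  rw [map_sub, coeff_toQp] at h1
  refine absurd ?_ (lt_irrefl ‖coeff 0 f‖)
  calc ‖coeff 0 f‖ = ‖((coeff 0 S : ℚ) : ℚ_[p]) + -(((coeff 0 S : ℚ) : ℚ_[p]) - coeff 0 f)‖ := by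
        rw [neg_sub, add_sub_cancel]
    _ ≤ max ((p : ℝ) ^ (m : ℤ) * max C ((p : ℝ) ^ (-(a : ℤ)))) ((p : ℝ) ^ (-(a : ℤ))) :=
        (Padic.nonarchimedean _ _).trans (max_le_max h0 (by rw [norm_neg]; exact h1))
    _ < ‖coeff 0 f‖ := max_lt hlt' (lt_of_le_of_lt
        (le_mul_of_one_le_left (zpow_pos' _).le (one_le_zpow₀ one_lt_cast.le (by omega))) ha')

/-- Off weight `0` the higher coefficients determine a `p`-adic form. -/
theorem IsPadicForm.eq_of_higher (h5 : 5 ≤ p) (h : IsPadicForm f κ) (h' : IsPadicForm g κ)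
    (hκ : κ ≠ 0) (he : ∀ n ≠ 0, coeff n f = coeff n g) : f = g := by
  obtain ⟨m, hm⟩ := exists_not_near hκ
  have h0 := (h.sub h5 h').constant_le h5 hm le_rfl fun n hn => by
    rw [map_sub, he n hn, sub_self, norm_zero]
  rw [mul_zero, norm_le_zero_iff, map_sub, sub_eq_zero] at h0
  exact PowerSeries.ext fun n => (eq_or_ne n 0).elim (fun e => e ▸ h0) (he n)

/-- **Serre's limit of constant terms.** -/
theorem constant_limit (h5 : 5 ≤ p) {S : ℕ → PowerSeries ℚ} {k : ℕ → ℕ}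
    (hS : ∀ i, IsRatForm (k i) (S i)) (hk : WeightsTo k κ) (hκ : κ ≠ 0) {u : ℕ → ℚ_[p]}
    (hu : ∀ ε : ℝ, 0 < ε → ∀ᶠ i in atTop, ∀ n ≠ 0, ‖((coeff n (S i) : ℚ) : ℚ_[p]) - u n‖ ≤ ε) :
    ∃ F : PowerSeries ℚ_[p], IsPadicForm F κ ∧ (∀ n ≠ 0, coeff n F = u n) ∧
      SeriesTendsto (fun i => toQp p (S i)) F := by
  obtain ⟨m, hm⟩ := exists_not_near hκ
  obtain ⟨B, hB⟩ : ∃ B : ℝ, ∀ n ≠ 0, ‖u n‖ ≤ B := by
    obtain ⟨i, hi⟩ := (hu 1 one_pos).exists
    obtain ⟨C, hC⟩ := (hS i).exists_supLe (p := p)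
    refine ⟨max C 1, fun n hn => ?_⟩
    rw [← sub_sub_cancel ((coeff n (S i) : ℚ) : ℚ_[p]) (u n), sub_eq_add_neg]
    refine (Padic.nonarchimedean _ _).trans (max_le_max ?_ (by rw [norm_neg]; exact hi n hn))
    simpa using hC n
  obtain ⟨e, he⟩ := exists_pow_ge (p := p) (max B 1)
  have hev : ∀ a : ℕ, ∀ᶠ i in atTop, Near κ (a + m) (k i) ∧
      ∀ n ≠ 0, ‖((coeff n (S i) : ℚ) : ℚ_[p]) - u n‖ ≤ (p : ℝ) ^ (-(a : ℤ)) := fun a =>
    (hk _).and (hu _ (zpow_pos' _))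
  choose N hN using fun a => eventually_atTop.1 (hev a)
  have hp0 := (zero_lt_one.trans (one_lt_cast (p := p))).ne'
  have hSC : ∀ i, N 0 ≤ i → SupLe (toQp p (S i)) ((p : ℝ) ^ ((m + e : ℕ) : ℤ)) := fun i hi => by
    obtain ⟨h1, h2⟩ := hN 0 i hi
    have hh : ∀ n ≠ 0, ‖((coeff n (S i) : ℚ) : ℚ_[p])‖ ≤ (p : ℝ) ^ (e : ℤ) := fun n hn => by
      rw [← sub_add_cancel ((coeff n (S i) : ℚ) : ℚ_[p]) (u n)]
      exact (Padic.nonarchimedean _ _).trans (max_le ((h2 n hn).trans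
        ((zpow_le_one_of_nonpos₀ one_lt_cast.le (by omega)).trans ((le_max_right _ _).trans he)))
        ((hB n hn).trans ((le_max_left _ _).trans he)))
    intro n
    rw [coeff_toQp, Nat.cast_add, zpow_add₀ hp0]
    rcases eq_or_ne n 0 with rfl | hn
    · exact constant_le h5 (hS i) (not_dvd_of_near hm (h1.mono (Nat.le_add_left _ _)))
        (zpow_pos' _).le hh
    · exact (hh n hn).trans (le_mul_of_one_le_left (zpow_pos' _).le
        (one_le_zpow₀ one_lt_cast.le (by omega)))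
  -- the constants of two late forms are close
  have key : ∀ a i j, N a ≤ i → N a ≤ j → N 0 ≤ i → k i ≤ k j →
      ‖((coeff 0 (S i) : ℚ) : ℚ_[p]) - ((coeff 0 (S j) : ℚ) : ℚ_[p])‖ ≤
        (p : ℝ) ^ ((2 * m + e : ℕ) : ℤ) * (p : ℝ) ^ (-(a : ℤ)) := fun a i j hi hj hi0 hle => by
    obtain ⟨hki, hui⟩ := hN a i hi
    obtain ⟨hkj, huj⟩ := hN a j hj
    obtain ⟨T, hT, hTd⟩ := (hS i).raise h5 (hSC i hi0) hle
      ((hki.mono (Nat.le_add_right a m)).dvd (hkj.mono (Nat.le_add_right a m)))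
    obtain ⟨d, hd⟩ : ∃ d : ℝ, d = (p : ℝ) ^ ((m + e : ℕ) : ℤ) * (p : ℝ) ^ (-(a : ℤ)) :=
      ⟨_, rfl⟩
    have hd0 : 0 ≤ d := hd ▸ (mul_pos (zpow_pos' _) (zpow_pos' _)).le
    have hTd' : ∀ n, ‖((coeff n T : ℚ) : ℚ_[p]) - ((coeff n (S i) : ℚ) : ℚ_[p])‖ ≤ d := fun n => by
      have h := hTd n
      rw [map_sub, coeff_toQp, coeff_toQp] at h
      exact h.trans (hd ▸ mul_le_mul_of_nonneg_left (pow_neg_mono (Nat.le_succ a))
        (zpow_pos' _).le)
    have hsmall : (p : ℝ) ^ (-(a : ℤ)) ≤ d := hd ▸ le_mul_of_one_le_left (zpow_pos' _).le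
      (one_le_zpow₀ one_lt_cast.le (by omega))
    have h0 := constant_le (p := p) h5 ((hS j).sub hT)
      (not_dvd_of_near hm (hkj.mono (Nat.le_add_left _ _))) hd0 fun n hn => by
        rw [map_sub, Rat.cast_sub, show ((coeff n (S j) : ℚ) : ℚ_[p]) -
          ((coeff n T : ℚ) : ℚ_[p]) = ((((coeff n (S j) : ℚ) : ℚ_[p]) - u n) +
            -(((coeff n (S i) : ℚ) : ℚ_[p]) - u n)) +
            -(((coeff n T : ℚ) : ℚ_[p]) - ((coeff n (S i) : ℚ) : ℚ_[p])) by ring]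
        refine (Padic.nonarchimedean _ _).trans (max_le ((Padic.nonarchimedean _ _).trans
          (max_le ((huj n hn).trans hsmall) ?_)) ?_)
        · rw [norm_neg]; exact (hui n hn).trans hsmall
        · rw [norm_neg]; exact hTd' n
    rw [map_sub, Rat.cast_sub] at h0
    have e2 : (p : ℝ) ^ (m : ℤ) * d = (p : ℝ) ^ ((2 * m + e : ℕ) : ℤ) * (p : ℝ) ^ (-(a : ℤ)) := by
      rw [hd, ← mul_assoc, ← zpow_add₀ hp0]
      push_cast
      ring_nf
    rw [← e2, norm_sub_rev, show ((coeff 0 (S j) : ℚ) : ℚ_[p]) - ((coeff 0 (S i) : ℚ) : ℚ_[p]) =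
      (((coeff 0 (S j) : ℚ) : ℚ_[p]) - ((coeff 0 T : ℚ) : ℚ_[p])) +
        (((coeff 0 T : ℚ) : ℚ_[p]) - ((coeff 0 (S i) : ℚ) : ℚ_[p])) by ring]
    exact (Padic.nonarchimedean _ _).trans (max_le h0 ((hTd' 0).trans
      (le_mul_of_one_le_left hd0 (one_le_zpow₀ one_lt_cast.le (by omega)))))
  have hc : CauchySeq fun i => ((coeff 0 (S i) : ℚ) : ℚ_[p]) := by
    refine Metric.cauchySeq_iff.2 fun ε hε => ?_
    obtain ⟨a, ha⟩ := exists_pow_neg_lt (p := p) (div_pos hε (zpow_pos' (p := p) ((2 * m + e : ℕ) : ℤ)))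
    rw [lt_div_iff₀ (zpow_pos' _), mul_comm] at ha
    refine ⟨max (N a) (N 0), fun i hi j hj => ?_⟩
    rw [dist_eq_norm]
    rcases le_total (k i) (k j) with hle | hle
    · exact (key a i j (le_of_max_le_left hi) (le_of_max_le_left hj) (le_of_max_le_right hi)
        hle).trans_lt ha
    · rw [norm_sub_rev]
      exact (key a j i (le_of_max_le_left hj) (le_of_max_le_left hi) (le_of_max_le_right hj)
        hle).trans_lt ha
  obtain ⟨c, hc'⟩ := cauchySeq_tendsto_of_complete hc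
  obtain ⟨F, hF⟩ : ∃ F : PowerSeries ℚ_[p], F = PowerSeries.mk fun n => if n = 0 then c else u n :=
    ⟨_, rfl⟩
  have hlim : SeriesTendsto (fun i => toQp p (S i)) F := fun ε hε => by
    filter_upwards [hu ε hε, (tendsto_iff_norm_sub_tendsto_zero.1 hc').eventually
      (eventually_le_nhds hε)] with i hi h0 n
    rw [map_sub, coeff_toQp, hF, coeff_mk]
    split_ifs with hn
    · exact hn ▸ h0
    · exact hi n hn
  refine ⟨F, fun a => ?_, fun n hn => by rw [hF, coeff_mk, if_neg hn], hlim⟩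
  obtain ⟨i, hi, hi'⟩ := ((hk a).and (hlim _ (zpow_pos' (p := p) (-(a : ℤ))))).exists
  exact ⟨k i, S i, hS i, hi, hi'⟩

end FA.PadicForms

end
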