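import Fermat.Agent.PadicForms.Forms
import Fermat.Agent.Tau.AlgebraModP
import Fermat.Agent.Tau.ContractionModP
import Mathlib.RingTheory.IntegralClosure.IntegrallyClosed

/-!
# Serre's congruence for weights

The series `φ = ∑ σ_(p-2)(n) qⁿ` satisfies `φ - φᵖ = ψ` with `ψ` a form modulo `p`. The algebra of
forms modulo `p` is integrally closed, so `φ` is not a quotient of forms of weights congruent
modulo `p - 1`; hence forms congruent modulo `p ^ m` have weights congruent modulo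
`(p - 1) p ^ (m - 1)`.
-/

set_option autoImplicit false
set_option linter.unusedSectionVars false
set_option linter.style.haveILetI false

noncomputable section

open UpperHalfPlane hiding I
open scoped MatrixGroups ModularForm ArithmeticFunction.sigma

namespace FA.PadicForms

open MvPolynomial FA.SwinnertonDyer FA.SerreDenominators FA.Tau FA.Eis

local notation "Poly" p:max => MvPolynomial (Fin 2) (ZMod p)

variable {p : ℕ} [Fact p.Prime]

/-- `φ - φᵖ` is a form of weight `p² - 1`. -/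
theorem isFormModP_sigma_sub_pow (h5 : 5 ≤ p) :
    IsFormModP p ((p - 2 + 1) * (p + 1)) (sigmaSer p (p - 2) - sigmaSer p (p - 2) ^ p) := by
  obtain ⟨hθ, -⟩ := isLeast_theta_iterate (p := p) h5 (p - 2) le_rfl
  rw [iterate_theta_e2 h5] at hθ
  have := formModP_smul h5 hθ.1 (-24)⁻¹
  rwa [← mul_assoc, ← map_mul, inv_mul_cancel₀ (neg24_ne h5), map_one, one_mul] at this

/-- A finite sum of forms modulo `p` of weights divisible by `p - 1` is one. -/
theorem exists_weight_sum (h5 : 5 ≤ p) {ι : Type*} (s : Finset ι) (f : ι → PowerSeries (ZMod p))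
    (hf : ∀ i ∈ s, ∃ n, (p - 1) ∣ n ∧ IsFormModP p n (f i)) :
    ∃ n, (p - 1) ∣ n ∧ IsFormModP p n (∑ i ∈ s, f i) := by
  classical
  induction s using Finset.induction with
  | empty => exact ⟨0, dvd_zero _, by simpa using isFormModP_phi (isWeightedHomogeneous_zero (ZMod p) wts 0)⟩
  | @insert a s ha ih =>
    obtain ⟨n, ⟨i, rfl⟩, hn⟩ := ih fun i hi => hf i (Finset.mem_insert_of_mem hi)
    obtain ⟨m, ⟨j, rfl⟩, hm⟩ := hf a (Finset.mem_insert_self a s)
    refine ⟨(p - 1) * (i + j), dvd_mul_right _ _, ?_⟩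
    rw [Finset.sum_insert ha]
    have h1 := hm.add_weight h5 i
    have h2 := hn.add_weight h5 j
    rw [show (p - 1) * j + i * (p - 1) = (p - 1) * (i + j) by ring] at h1
    rw [show (p - 1) * i + j * (p - 1) = (p - 1) * (i + j) by ring] at h2
    have h := h1.sub h5 (formModP_smul h5 h2 (-1))
    rwa [map_neg, map_one, neg_mul, one_mul, sub_neg_eq_add] at h

/-- Scaling the variables by the weights of a unit. -/
theorem phi_scale (h5 : 5 ≤ p) (u : (ZMod p)ˣ) {F G : Poly p} (h : phi p F = phi p G) :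
    phi p (aeval (R := ZMod p) (fun i => C ((u : ZMod p) ^ wts i) * X i) F) =
      phi p (aeval (R := ZMod p) (fun i => C ((u : ZMod p) ^ wts i) * X i) G) := by
  have hmem : F - G ∈ RingHom.ker (phi p) := by
    rw [RingHom.mem_ker, map_sub, h, sub_self]
  rw [ker_phi h5, Ideal.mem_span_singleton'] at hmem
  obtain ⟨H, hH⟩ := hmem
  rw [← sub_eq_zero, ← map_sub, ← map_sub, ← hH, map_mul, map_mul, map_sub, map_one, map_sub,
    map_one, scale_isob u (isob_hassePoly h5), ZMod.pow_card_sub_one_eq_one u.ne_zero, map_one,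
    one_mul, phi_hassePoly h5, sub_self, mul_zero]

/-- **`φ` is no quotient of forms of congruent weights.** -/
theorem not_form_mul_sigma (h5 : 5 ≤ p) {k k' : ℕ} {f : PowerSeries (ZMod p)} (hf0 : f ≠ 0)
    (hf : IsFormModP p k f) (hkk : k' ≡ k [MOD p - 1]) :
    ¬IsFormModP p k' (f * sigmaSer p (p - 2)) := by
  intro hg
  obtain ⟨F, hF, hFf⟩ := hf.exists_isob h5
  obtain ⟨G, hG, hGg⟩ := hg.exists_isob h5
  obtain ⟨Ψ, -, hΨ⟩ := (isFormModP_sigma_sub_pow (p := p) h5).exists_isob h5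
  obtain ⟨φ, hφ⟩ : ∃ φ, φ = sigmaSer p (p - 2) := ⟨_, rfl⟩
  rw [← hφ] at hGg hΨ
  -- `φ` is in the algebra
  obtain ⟨H, hH⟩ : ∃ H : Poly p, phi p H = φ := by
    have := isDedekindDomain_range (p := p) h5
    let R := (phi p).range
    let a : R := ⟨phi p F, F, rfl⟩
    let b : R := ⟨phi p G, G, rfl⟩
    let c : R := ⟨phi p Ψ, Ψ, rfl⟩
    have ha : algebraMap R (FractionRing R) a ≠ 0 := fun e => hf0 (by
      rw [← hFf]
      exact congrArg Subtype.val
        ((IsFractionRing.injective R (FractionRing R)) (e.trans (map_zero _).symm)))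
    have hrel : b ^ p - a ^ (p - 1) * b + c * a ^ p = 0 := by
      refine Subtype.ext ?_
      show phi p G ^ p - phi p F ^ (p - 1) * phi p G + phi p Ψ * phi p F ^ p = 0
      rw [hGg, hFf, hΨ]
      rw [← mul_assoc, ← pow_succ, show p - 1 + 1 = p by omega]
      ring
    obtain ⟨x, hx⟩ : ∃ x, x = algebraMap R (FractionRing R) b / algebraMap R (FractionRing R) a :=
      ⟨_, rfl⟩
    have hint : IsIntegral R x := by
      refine ⟨Polynomial.X ^ p - (Polynomial.X - Polynomial.C c),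
        Polynomial.monic_X_pow_sub ((Polynomial.degree_X_sub_C c).trans_lt
          (by exact_mod_cast (Fact.out : p.Prime).one_lt)), ?_⟩
      have e := congrArg (algebraMap R (FractionRing R)) hrel
      simp only [map_add, map_sub, map_mul, map_pow, map_zero] at e
      simp only [Polynomial.eval₂_sub, Polynomial.eval₂_pow, Polynomial.eval₂_X, Polynomial.eval₂_C]
      have hp1 : algebraMap R (FractionRing R) a ^ p =
          algebraMap R (FractionRing R) a ^ (p - 1) * algebraMap R (FractionRing R) a := by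
        rw [← pow_succ, show p - 1 + 1 = p by omega]
      have hxa : x * algebraMap R (FractionRing R) a = algebraMap R (FractionRing R) b := by
        rw [hx, div_mul_cancel₀ _ ha]
      rw [← hxa] at e
      refine (mul_eq_zero.1 ?_).resolve_right (pow_ne_zero p ha)
      linear_combination e - x * hp1
    obtain ⟨y, hy⟩ := IsIntegrallyClosed.isIntegral_iff.1 hint
    obtain ⟨H, hH⟩ := y.2
    have e : algebraMap R (FractionRing R) (y * a) = algebraMap R (FractionRing R) b := by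
      rw [map_mul, hy, hx, div_mul_cancel₀ _ ha]
    have e' : (y : PowerSeries (ZMod p)) * phi p F = phi p G :=
      congrArg Subtype.val (IsFractionRing.injective R (FractionRing R) e)
    refine ⟨H, mul_right_cancel₀ (hFf.symm ▸ hf0 : phi p F ≠ 0) ?_⟩
    rw [show phi p H = (y : PowerSeries (ZMod p)) from hH, e', hGg, hFf, mul_comm]
  -- and of weight class zero
  classical
  obtain ⟨T, hT⟩ : ∃ T : Poly p, T = ∑ d ∈ H.support with (p - 1) ∣ Finsupp.weight wts d,
      monomial d (coeff d H) := ⟨_, rfl⟩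
  have hscale : ∀ u : (ZMod p)ˣ,
      phi p (aeval (R := ZMod p) (fun i => C ((u : ZMod p) ^ wts i) * X i) H) = φ := fun u => by
    have h1 := phi_scale h5 u (F := F * H) (G := G) (by rw [map_mul, hFf, hH, hGg])
    rw [map_mul, scale_isob u hF, scale_isob u hG] at h1
    have hku : (u : ZMod p) ^ k' = (u : ZMod p) ^ k := by
      rw [← Units.val_pow_eq_pow_val, ← Units.val_pow_eq_pow_val]
      refine congrArg _ (pow_eq_pow_iff_modEq.2 (hkk.of_dvd ?_))
      rw [← ZMod.card_units p]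
      exact orderOf_dvd_card
    simp only [map_mul, phi, aeval_C, PowerSeries.algebraMap_eq, hku] at h1
    rw [← phi, mul_assoc] at h1
    have h2 := mul_left_cancel₀ (fun e => by
      simpa [u.ne_zero] using congrArg PowerSeries.constantCoeff e) h1
    rw [hFf, hGg] at h2
    exact mul_left_cancel₀ hf0 h2
  have hTφ : phi p T = φ := by
    have hmon : ∀ (u : (ZMod p)ˣ) (d : Fin 2 →₀ ℕ),
        aeval (R := ZMod p) (fun i => C ((u : ZMod p) ^ wts i) * X i) (monomial d (coeff d H)) =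
          C ((u : ZMod p) ^ Finsupp.weight wts d) * monomial d (coeff d H) := fun u d =>
      scale_isob u (isWeightedHomogeneous_monomial wts d _ rfl)
    have h1 : ∑ u : (ZMod p)ˣ, φ = ((p - 1 : ℕ) : PowerSeries (ZMod p)) * phi p T := by
      rw [← Finset.sum_congr rfl fun u _ => hscale u]
      conv_lhs => rw [H.as_sum]
      simp only [map_sum, hmon, map_mul]
      rw [Finset.sum_comm, hT, map_sum, Finset.mul_sum, Finset.sum_filter]
      refine Finset.sum_congr rfl fun d _ => ?_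
      rw [← Finset.sum_mul]
      have hsum : ∑ u : (ZMod p)ˣ, phi p (C ((u : ZMod p) ^ Finsupp.weight wts d)) =
          if (p - 1) ∣ Finsupp.weight wts d then ((p - 1 : ℕ) : PowerSeries (ZMod p)) else 0 := by
        simp only [phi, aeval_C, PowerSeries.algebraMap_eq]
        rw [← map_sum, FiniteField.sum_pow_units, ZMod.card]
        split_ifs with h
        · rw [map_neg, map_one, Nat.cast_sub (by omega : 1 ≤ p), Nat.cast_one,
            ← map_natCast (PowerSeries.C (R := ZMod p)) p, ZMod.natCast_self, map_zero, zero_sub]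
        · rw [map_zero]
      rw [hsum]
      split_ifs <;> simp
    rw [Finset.sum_const, Finset.card_univ, ZMod.card_units, nsmul_eq_mul] at h1
    exact (mul_left_cancel₀ (fun e => by
      have := congrArg PowerSeries.constantCoeff e
      rw [map_natCast, map_zero, Nat.cast_sub (by omega : 1 ≤ p), ZMod.natCast_self] at this
      simp at this) h1).symm
  obtain ⟨n, hn, hnf⟩ := exists_weight_sum h5
    (H.support.filter fun d => (p - 1) ∣ Finsupp.weight wts d)
    (fun d => phi p (monomial d (coeff d H))) fun d hd =>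
      ⟨_, (Finset.mem_filter.1 hd).2, isFormModP_phi (isWeightedHomogeneous_monomial wts d _ rfl)⟩
  rw [← map_sum, ← hT, hTφ, hφ] at hnf
  exact sigmaSer_not_form h5 hn hnf

/-- `B E_(p-1) = B + p c φ` with `c` prime to `p`. -/
theorem exists_hasse_form (h5 : 5 ≤ p) : ∃ (B c : ℤ) (E : ModularForm 𝒮ℒ ((p - 1 : ℕ) : ℤ)),
    ¬(p : ℤ) ∣ B ∧ ¬(p : ℤ) ∣ c ∧ qExpansion 1 ⇑E = (PowerSeries.C B +
      (p : PowerSeries ℤ) * (PowerSeries.C c * sigmaInt (p - 2))).map (Int.castRingHom ℂ) := by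
  obtain ⟨B, D, hBD, hD, hB⟩ := FA.HasseEis.exists_bernoulli (p := p) h5
  have hk3 : 3 ≤ p - 1 := by omega
  have hkev : Even (p - 1) := (Fact.out : p.Prime).even_sub_one (by omega)
  obtain ⟨c, hc⟩ : ∃ c : ℤ, c = -2 * ((p - 1 : ℕ) : ℤ) * D := ⟨_, rfl⟩
  have hbern : (B : ℂ) = (p : ℂ) * (bernoulli (p - 1) : ℂ) * (D : ℂ) := by exact_mod_cast hBD.symm
  have hBne : ¬(p : ℤ) ∣ B := fun h => hD (by
    rw [← ZMod.intCast_zmod_eq_zero_iff_dvd, hB, neg_eq_zero] at h
    exact h)
  have hb0 : (bernoulli (p - 1) : ℂ) ≠ 0 := fun h => hBne (by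
    rw [h, mul_zero, zero_mul, Int.cast_eq_zero] at hbern
    exact hbern ▸ dvd_zero _)
  refine ⟨B, c, (B : ℂ) • ModularForm.E hk3, hBne, fun h => ?_, ?_⟩
  · rw [← ZMod.intCast_zmod_eq_zero_iff_dvd, hc] at h
    push_cast [Nat.cast_sub (Fact.out : p.Prime).one_le, ZMod.natCast_self] at h
    simp [hD, (ne_two_three h5).1] at h
  rw [FunLike.coe_smul, ((hasQ_form (ModularForm.E hk3)).smul (B : ℂ)).qExpansion_eq one_pos]
  refine PowerSeries.ext fun i => ?_
  rw [PowerSeries.coeff_smul, EisensteinSeries.E_qExpansion_coeff hk3 hkev, PowerSeries.coeff_map,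
    natCast_series, map_add, PowerSeries.coeff_C_mul, PowerSeries.coeff_C_mul, sigmaInt,
    PowerSeries.coeff_mk, PowerSeries.coeff_C, show p - 1 - 1 = p - 2 by omega, eq_intCast,
    smul_eq_mul, hc]
  rcases eq_or_ne i 0 with rfl | hi
  · simp
  · rw [if_neg hi, if_neg hi, zero_add, hbern]
    push_cast
    field_simp

/-- **Serre's theorem on weights**, integral series. -/
theorem weight_dvd_of_congr (h5 : 5 ≤ p) {k k' m : ℕ} (hle : k ≤ k') (hm : 1 ≤ m)
    (F : ModularForm 𝒮ℒ (k : ℤ)) (G : ModularForm 𝒮ℒ (k' : ℤ)) {S S' : PowerSeries ℤ}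
    (hS : qExpansion 1 ⇑F = S.map (Int.castRingHom ℂ))
    (hS' : qExpansion 1 ⇑G = S'.map (Int.castRingHom ℂ))
    (hcong : ∀ n, (p : ℤ) ^ m ∣ PowerSeries.coeff n S' - PowerSeries.coeff n S)
    (h0 : S.map (Int.castRingHom (ZMod p)) ≠ 0) : (p - 1) * p ^ (m - 1) ∣ k' - k := by
  have hpr : p.Prime := Fact.out
  obtain ⟨R, hR⟩ : ∃ R : PowerSeries ℤ, S' = S + PowerSeries.C ((p : ℤ) ^ m) * R := by
    choose r hr using hcong
    exact ⟨PowerSeries.mk r, PowerSeries.ext fun n => by
      rw [map_add, PowerSeries.coeff_C_mul, PowerSeries.coeff_mk, ← hr, add_sub_cancel]⟩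
  have hred : S.map (Int.castRingHom (ZMod p)) = S'.map (Int.castRingHom (ZMod p)) := by
    rw [hR, map_add, map_mul, PowerSeries.map_C, map_pow, map_natCast, ZMod.natCast_self,
      zero_pow (show m ≠ 0 by omega), map_zero, zero_mul, add_zero]
  have hmod : k ≡ k' [MOD p - 1] := congruent_weights h5 F G hS hS' hred h0
  obtain ⟨q, hq⟩ := (Nat.modEq_iff_dvd' hle).1 hmod
  rw [hq]
  refine Nat.mul_dvd_mul_left _ ?_
  by_contra hdq
  have hq0 : q ≠ 0 := fun h => hdq (h ▸ dvd_zero _)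
  obtain ⟨s, t, ht, rfl⟩ := Nat.exists_eq_pow_mul_and_not_dvd hq0 p hpr.ne_one
  have hsm : s + 1 < m := by
    by_contra h
    exact hdq (dvd_mul_of_dvd_left (pow_dvd_pow p (by omega)) t)
  obtain ⟨B, c, E, hB, hc, hE⟩ := exists_hasse_form (p := p) h5
  obtain ⟨z, hz⟩ := exists_pow_expansion (hpr.odd_of_ne_two (by omega)) (PowerSeries.C B)
    (PowerSeries.C c * sigmaInt (p - 2)) s t
  obtain ⟨e, he⟩ : ∃ e : ℤ, e = (t : ℤ) * B ^ (p ^ s * t - 1) * c := ⟨_, rfl⟩
  obtain ⟨j, hj⟩ : ∃ j, m = s + 1 + (j + 1) := ⟨m - (s + 2), by omega⟩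
  obtain ⟨b, hb⟩ : ∃ b : ℤ, b = B ^ (p ^ s * t) := ⟨_, rfl⟩
  obtain ⟨W, hW⟩ : ∃ W : PowerSeries ℤ, W = PowerSeries.C (b * (p : ℤ) ^ (j + 1)) * R -
      PowerSeries.C e * (S * sigmaInt (p - 2)) - PowerSeries.C (p : ℤ) * (S * z) := ⟨_, rfl⟩
  have hser : PowerSeries.C b * S' -
      S * (PowerSeries.C B + (p : PowerSeries ℤ) * (PowerSeries.C c * sigmaInt (p - 2))) ^
        (p ^ s * t) = PowerSeries.C ((p : ℤ) ^ (s + 1)) * W := by
    rw [hz, hR, hW, he, hb, hj]
    simp only [natCast_series, map_mul, map_pow, pow_add, pow_one]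
    ring
  have hform : IsFormModP p k' (W.map (Int.castRingHom (ZMod p))) := by
    have hFq : HasQ 1 ⇑F (S.map (Int.castRingHom ℂ)) := hS ▸ hasQ_form F
    have hGq : HasQ 1 ⇑G (S'.map (Int.castRingHom ℂ)) := hS' ▸ hasQ_form G
    have hEq : HasQ 1 ⇑E ((PowerSeries.C B + (p : PowerSeries ℤ) *
        (PowerSeries.C c * sigmaInt (p - 2))).map (Int.castRingHom ℂ)) := hE ▸ hasQ_form E
    have hkk : (k : ℤ) + (p ^ s * t : ℕ) * ((p - 1 : ℕ) : ℤ) = (k' : ℤ) := by
      rw [← Nat.cast_mul, ← Nat.cast_add]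
      congr 1
      rw [mul_comm (p ^ s * t)]
      omega
    refine ⟨(((p : ℂ) ^ (s + 1))⁻¹) • ((b : ℂ) • G -
      ModularForm.mcast hkk (F.mul (E.pow (p ^ s * t)))), W, ?_, rfl⟩
    rw [FunLike.coe_smul, FunLike.coe_sub, FunLike.coe_smul, ModularForm.coe_mcast,
      ModularForm.coe_mul, ModularForm.coe_pow,
      (((hGq.smul (b : ℂ)).sub (hFq.mul one_pos
        (hEq.pow one_pos (p ^ s * t)))).smul _).qExpansion_eq one_pos]
    have h' := congrArg (PowerSeries.map (Int.castRingHom ℂ)) hser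
    simp only [map_sub, map_mul (PowerSeries.map _), map_pow (PowerSeries.map _),
      PowerSeries.map_C, Int.coe_castRingHom, Int.cast_pow, Int.cast_natCast] at h'
    rw [PowerSeries.smul_eq_C_mul, PowerSeries.smul_eq_C_mul, h', ← mul_assoc,
      ← map_mul, inv_mul_cancel₀ (pow_ne_zero _ (Nat.cast_ne_zero.2 hpr.ne_zero)), map_one,
      one_mul]
  have hWmod : W.map (Int.castRingHom (ZMod p)) = PowerSeries.C (-(e : ZMod p)) *
      (S.map (Int.castRingHom (ZMod p)) * sigmaSer p (p - 2)) := by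
    have hp0 : ((p : ℕ) : PowerSeries (ZMod p)) = 0 := by
      rw [← map_natCast (PowerSeries.C (R := ZMod p)) p, ZMod.natCast_self, map_zero]
    rw [hW, ← map_sigmaInt]
    simp [map_sub, map_mul (PowerSeries.map _), hp0]
  have he0 : (e : ZMod p) ≠ 0 := fun h => by
    rw [ZMod.intCast_zmod_eq_zero_iff_dvd, he] at h
    rcases (Nat.prime_iff_prime_int.1 hpr).dvd_or_dvd h with h | h
    · rcases (Nat.prime_iff_prime_int.1 hpr).dvd_or_dvd h with h | h
      · exact ht (Int.natCast_dvd_natCast.1 h)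
      · exact hB ((Nat.prime_iff_prime_int.1 hpr).dvd_of_dvd_pow h)
    · exact hc h
  rw [hWmod] at hform
  have h := formModP_smul h5 hform (-(e : ZMod p))⁻¹
  rw [← mul_assoc, ← map_mul, inv_mul_cancel₀ (neg_ne_zero.2 he0), map_one, one_mul] at h
  exact not_form_mul_sigma h5 h0 ⟨F, S, hS, rfl⟩ hmod.symm h

/-- **Serre's theorem on weights**: forms congruent modulo `p ^ m` and not `0` modulo `p` have
weights congruent modulo `(p - 1) p ^ (m - 1)`. -/
theorem weight_congr_of_norm (h5 : 5 ≤ p) {k k' m : ℕ} (hm : 1 ≤ m) {S S' : PowerSeries ℚ}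
    (hS : IsRatForm k S) (hS' : IsRatForm k' S') (hb : SupLe (toQp p S) 1)
    {n₀ : ℕ} (hn₀ : ‖((PowerSeries.coeff n₀ S : ℚ) : ℚ_[p])‖ = 1)
    (hcong : SupLe (toQp p S - toQp p S') ((p : ℝ) ^ (-(m : ℤ)))) :
    ((((p - 1) * p ^ (m - 1) : ℕ)) : ℤ) ∣ (k : ℤ) - (k' : ℤ) := by
  have hpr : p.Prime := Fact.out
  have hp1 : (1 : ℝ) ≤ p := by exact_mod_cast hpr.one_le
  have hb' : SupLe (toQp p S') 1 := by
    have h := hb.sub (hcong.mono (zpow_le_one_of_nonpos₀ hp1 (by omega)))
    rwa [sub_sub_cancel] at h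
  obtain ⟨D, T, F, hD, hF, hT⟩ := hS.exists_prime_to hb
  obtain ⟨D', T', G, hD', hG, hT'⟩ := hS'.exists_prime_to hb'
  have hG' : qExpansion 1 ⇑((D : ℂ) • G) =
      (PowerSeries.C (D : ℤ) * T').map (Int.castRingHom ℂ) := by
    rw [FunLike.coe_smul, ((hasQ_form G).smul (D : ℂ)).qExpansion_eq one_pos, hG, map_mul,
      PowerSeries.map_C, PowerSeries.smul_eq_C_mul]
    simp
  have hF' : qExpansion 1 ⇑((D' : ℂ) • F) =
      (PowerSeries.C (D' : ℤ) * T).map (Int.castRingHom ℂ) := by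
    rw [FunLike.coe_smul, ((hasQ_form F).smul (D' : ℂ)).qExpansion_eq one_pos, hF, map_mul,
      PowerSeries.map_C, PowerSeries.smul_eq_C_mul]
    simp
  have hcT : ∀ n, ((PowerSeries.coeff n T : ℤ) : ℚ_[p]) =
      (D : ℚ_[p]) * ((PowerSeries.coeff n S : ℚ) : ℚ_[p]) := fun n => by
    have h := congrArg (PowerSeries.coeff n) hT
    rw [PowerSeries.coeff_smul, PowerSeries.coeff_map, eq_intCast, smul_eq_mul] at h
    rw [← Rat.cast_intCast, ← h, Rat.cast_mul, Rat.cast_natCast]
  have hcT' : ∀ n, ((PowerSeries.coeff n T' : ℤ) : ℚ_[p]) =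
      (D' : ℚ_[p]) * ((PowerSeries.coeff n S' : ℚ) : ℚ_[p]) := fun n => by
    have h := congrArg (PowerSeries.coeff n) hT'
    rw [PowerSeries.coeff_smul, PowerSeries.coeff_map, eq_intCast, smul_eq_mul] at h
    rw [← Rat.cast_intCast, ← h, Rat.cast_mul, Rat.cast_natCast]
  have hdiv : ∀ n, (p : ℤ) ^ m ∣ PowerSeries.coeff n (PowerSeries.C (D : ℤ) * T') -
      PowerSeries.coeff n (PowerSeries.C (D' : ℤ) * T) := fun n => by
    rw [PowerSeries.coeff_C_mul, PowerSeries.coeff_C_mul]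
    suffices h : ‖(((D : ℤ) * PowerSeries.coeff n T' -
        (D' : ℤ) * PowerSeries.coeff n T : ℤ) : ℚ_[p])‖ ≤ (p : ℝ) ^ (-(m : ℤ)) from by
      exact_mod_cast (Padic.norm_int_le_pow_iff_dvd _ _).1 h
    push_cast
    rw [hcT, hcT', show (D : ℚ_[p]) * ((D' : ℚ_[p]) * ((PowerSeries.coeff n S' : ℚ) : ℚ_[p])) -
      (D' : ℚ_[p]) * ((D : ℚ_[p]) * ((PowerSeries.coeff n S : ℚ) : ℚ_[p])) =
      -(((D * D' : ℕ) : ℚ_[p]) * PowerSeries.coeff n (toQp p S - toQp p S')) by
        rw [map_sub, coeff_toQp, coeff_toQp]; push_cast; ring, norm_neg, norm_mul]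
    refine (mul_le_of_le_one_left (norm_nonneg _) ?_).trans (hcong n)
    exact_mod_cast Padic.norm_int_le_one (p := p) ((D * D' : ℕ) : ℤ)
  have h0 : (PowerSeries.C (D' : ℤ) * T).map (Int.castRingHom (ZMod p)) ≠ 0 := fun h => by
    have h1 := congrArg (PowerSeries.coeff n₀) h
    rw [PowerSeries.coeff_map, PowerSeries.coeff_C_mul, map_zero, eq_intCast,
      ZMod.intCast_zmod_eq_zero_iff_dvd] at h1
    have h2 := (Padic.norm_intCast_lt_one_iff (p := p)).2 h1
    rw [Int.cast_mul, hcT, norm_mul, norm_mul, hn₀, mul_one] at h2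
    have hu : ∀ d : ℕ, ¬p ∣ d → ‖(d : ℚ_[p])‖ = 1 := fun d hd =>
      le_antisymm (by exact_mod_cast Padic.norm_int_le_one (p := p) (d : ℤ)) (not_lt.1 fun hlt =>
        hd (Int.natCast_dvd_natCast.1 ((Padic.norm_intCast_lt_one_iff (p := p)).1
          (by exact_mod_cast hlt))))
    rw [Int.cast_natCast, hu _ hD, hu _ hD', mul_one] at h2
    exact lt_irrefl _ h2
  rcases le_total k k' with hle | hle
  · have h := weight_dvd_of_congr h5 hle hm _ _ hF' hG' hdiv h0
    rw [← dvd_neg, neg_sub, ← Nat.cast_sub hle]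
    exact Int.natCast_dvd_natCast.2 h
  · have h := weight_dvd_of_congr h5 hle hm _ _ hG' hF' (fun n => by
      rw [← neg_sub, dvd_neg]
      exact hdiv n) fun e => h0 ?_
    · rw [← Nat.cast_sub hle]
      exact Int.natCast_dvd_natCast.2 h
    · rw [← e]
      refine PowerSeries.ext fun n => ?_
      rw [PowerSeries.coeff_map, PowerSeries.coeff_map]
      simp only [Int.coe_castRingHom]
      rw [ZMod.intCast_eq_intCast_iff_dvd_sub]
      exact (dvd_pow_self _ (by omega)).trans (hdiv n)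

end FA.PadicForms

end
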