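import Fermat.Agent.PadicForms.Eisenstein

/-!
# The constant of `G*_κ` is half the Kubota–Leopoldt zeta value

For an even branch `2 ≤ k ≤ p - 3` and `s : ℤ_p` the form `G*_κ`, `κ = (k, k + (p - 1) s)`, has the
constant `F s / 2`, where `F` interpolates the values `-(1 - p^(m-1)) B_m / m`. A `p`-adic form is
the same as a limit of rational forms with converging weights.
-/

set_option autoImplicit false
set_option linter.unusedSectionVars false

noncomputable section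

open PowerSeries Filter Topology

namespace FA.PadicForms

variable {p : ℕ} [Fact p.Prime]

/-- The two descriptions of `p`-adic forms agree. -/
theorem isPadicForm_iff_limit {f : PowerSeries ℚ_[p]} {κ : Weights p} :
    IsPadicForm f κ ↔ ∃ (k : ℕ → ℕ) (S : ℕ → PowerSeries ℚ), (∀ i, IsRatForm (k i) (S i)) ∧
      WeightsTo k κ ∧ SeriesTendsto (fun i => toQp p (S i)) f := by
  constructor
  · intro h
    choose k S hS hk hd using h
    refine ⟨k, S, hS, fun a => eventually_atTop.2 ⟨a, fun i hi => (hk i).mono hi⟩, fun ε hε => ?_⟩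
    obtain ⟨a, ha⟩ := exists_pow_neg_lt (p := p) hε
    exact eventually_atTop.2 ⟨a, fun i hi => (hd i).mono ((pow_neg_mono hi).trans ha.le)⟩
  · rintro ⟨k, S, hS, hk, hd⟩ a
    obtain ⟨i, hi, hi'⟩ := ((hk a).and (hd _ (zpow_pos' (p := p) (-(a : ℤ))))).exists
    exact ⟨k i, S i, hS i, hi, hi'⟩

/-- **Serre: the zeta function of Kubota and Leopoldt is the constant of `G*`.** -/
theorem constant_eq_zeta (h5 : 5 ≤ p) {k : ℕ} (hk : 2 ≤ k) (hkp : k ≤ p - 3) (hev : Even k)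
    {F : ℤ_[p] → ℤ_[p]} (hc : Continuous F)
    (hF : ∀ t : ℕ, ((F (t : ℤ_[p]) : ℤ_[p]) : ℚ_[p]) =
      ((-((1 - (p : ℚ) ^ (k + (p - 1) * t - 1)) *
        (bernoulli (k + (p - 1) * t) / ((k + (p - 1) * t : ℕ) : ℚ))) : ℚ) : ℚ_[p]))
    (s : ℤ_[p]) : ∃ G : PowerSeries ℚ_[p],
      IsPadicForm G (((k : ZMod (p - 1)), (k : ℤ_[p]) + ((p - 1 : ℕ) : ℤ_[p]) * s) : Weights p) ∧
        2 * coeff 0 G = ((F s : ℤ_[p]) : ℚ_[p]) ∧
        ∀ K : ℕ → ℕ, (∀ i, Even (K i)) → (∀ i, 4 ≤ K i) → Tendsto K atTop atTop →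
          WeightsTo K (((k : ZMod (p - 1)), (k : ℤ_[p]) + ((p - 1 : ℕ) : ℤ_[p]) * s) : Weights p) →
            SeriesTendsto (fun i => toQp p (eisSer (K i))) G := by
  have hp : p.Prime := Fact.out
  obtain ⟨j, hj⟩ := hev.two_dvd
  obtain ⟨κ, hκ⟩ : ∃ κ : Weights p,
      κ = ((k : ZMod (p - 1)), (k : ℤ_[p]) + ((p - 1 : ℕ) : ℤ_[p]) * s) := ⟨_, rfl⟩
  rw [← hκ]
  have hne : κ ≠ 0 := fun e => by
    have h1 := congrArg Prod.fst e
    rw [hκ, Prod.fst_zero, ZMod.natCast_eq_zero_iff] at h1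
    have := Nat.le_of_dvd (by omega) h1
    omega
  obtain ⟨G, hG, hGl⟩ := eisenstein_family (p := p) h5 (j := j) (by rw [hκ, hj]) hne
  refine ⟨G, hG, ?_, hGl⟩
  obtain ⟨t, ht⟩ : ∃ t : ℕ → ℕ, ∀ i, t i = s.appr i + p ^ i * (i + 4) := ⟨_, fun _ => rfl⟩
  obtain ⟨K, hK⟩ : ∃ K : ℕ → ℕ, ∀ i, K i = k + (p - 1) * t i := ⟨_, fun _ => rfl⟩
  have hKi : ∀ i, i + 4 ≤ K i := fun i => by
    rw [hK, ht]
    exact (((Nat.le_mul_of_pos_left _ (pow_pos hp.pos i)).trans (Nat.le_add_left _ _)).trans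
      (Nat.le_mul_of_pos_left _ (by omega))).trans (Nat.le_add_left _ _)
  have hts : ∀ i, ‖(t i : ℤ_[p]) - s‖ ≤ (p : ℝ) ^ (-(i : ℤ)) := fun i => by
    rw [ht, Nat.cast_add, Nat.cast_mul, Nat.cast_pow, add_sub_right_comm]
    refine (PadicInt.nonarchimedean _ _).trans (max_le ?_ ?_)
    · rw [norm_sub_rev, PadicInt.norm_le_pow_iff_mem_span_pow]
      exact PadicInt.appr_spec i s
    · rw [norm_mul, PadicInt.norm_p_pow]
      exact mul_le_of_le_one_right (zpow_pos' _).le (PadicInt.norm_le_one _)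
  have hKw : WeightsTo K κ := fun a => eventually_atTop.2 ⟨a, fun i hi => by
    refine ⟨?_, ?_⟩
    · rw [hK, hκ]
      push_cast [ZMod.natCast_self]
      ring
    · rw [hK, hκ, Nat.cast_add, Nat.cast_mul, add_sub_add_left_eq_sub, ← mul_sub, norm_mul]
      exact (mul_le_of_le_one_left (norm_nonneg _) (PadicInt.norm_le_one _)).trans
        ((hts i).trans (pow_neg_mono hi))⟩
  have htop : Tendsto K atTop atTop :=
    tendsto_atTop_mono (fun i => (Nat.le_add_right i 4).trans (hKi i)) tendsto_id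
  have hlim := hGl K (fun i => by rw [hK]; exact hev.add ((hp.even_sub_one (by omega)).mul_right _))
    (fun i => le_trans (by omega) (hKi i)) htop hKw
  have h0 : Tendsto (fun i => ((coeff 0 (eisSer (K i)) : ℚ) : ℚ_[p])) atTop (𝓝 (coeff 0 G)) := by
    refine tendsto_iff_norm_sub_tendsto_zero.2 (Metric.tendsto_atTop.2 fun ε hε => ?_)
    obtain ⟨N, hN⟩ := eventually_atTop.1 (hlim (ε / 2) (half_pos hε))
    refine ⟨N, fun i hi => ?_⟩
    have h1 := hN i hi 0
    rw [map_sub, coeff_toQp] at h1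
    rw [Real.dist_eq, sub_zero, abs_of_nonneg (norm_nonneg _)]
    linarith
  have hpp : Tendsto (fun i => ((p : ℚ_[p])) ^ (K i - 1)) atTop (𝓝 0) :=
    (tendsto_pow_atTop_nhds_zero_of_norm_lt_one Padic.norm_p_lt_one).comp
      (tendsto_atTop_mono (fun i => show i ≤ K i - 1 by have := hKi i; omega) tendsto_id)
  have hX : Tendsto (fun i => 2 * ((1 - (p : ℚ_[p]) ^ (K i - 1)) *
      ((coeff 0 (eisSer (K i)) : ℚ) : ℚ_[p]))) atTop (𝓝 (2 * coeff 0 G)) := by
    simpa using ((hpp.const_sub 1).mul h0).const_mul (2 : ℚ_[p])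
  have hY : Tendsto (fun i => ((F (t i : ℤ_[p]) : ℤ_[p]) : ℚ_[p])) atTop
      (𝓝 ((F s : ℤ_[p]) : ℚ_[p])) := by
    have h1 : Tendsto (fun i => (t i : ℤ_[p])) atTop (𝓝 s) := by
      refine tendsto_iff_norm_sub_tendsto_zero.2 (Metric.tendsto_atTop.2 fun ε hε => ?_)
      obtain ⟨a, ha⟩ := exists_pow_neg_lt (p := p) hε
      refine ⟨a, fun i hi => ?_⟩
      rw [Real.dist_eq, sub_zero, abs_of_nonneg (norm_nonneg _)]
      exact ((hts i).trans (pow_neg_mono hi)).trans_lt ha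
    exact (continuous_subtype_val.tendsto _).comp ((hc.tendsto s).comp h1)
  refine tendsto_nhds_unique hX (hY.congr fun i => ?_)
  rw [hF, ← hK]
  simp only [eisSer, coeff_mk, if_pos]
  push_cast
  ring

end FA.PadicForms

end
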